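import Mathlib

/-!
# S48 / P2-EIS (helper796): cotangent sums

`cotPi x = π cot (π x)`; row sums `∑_{n ∈ ℤ} (1/(x+n) - 1/(y+n)) = cotPi x - cotPi y`,
exponential form of `cotPi` in the upper and lower half planes.
-/

set_option autoImplicit false

noncomputable section

namespace Fermat.Agent.S48.H796

open Complex Filter Topology Asymptotics
open scoped Real

/-- `c(x) = π cot(π x)`. -/
def cotPi (x : ℂ) : ℂ := π * Complex.cot (π * x)

lemma cotPi_def (x : ℂ) : cotPi x = π * Complex.cot (π * x) := rfl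

lemma cotPi_eq_exp (x : ℂ) :
    cotPi x = π * ((cexp (2 * π * I * x) + 1) / (I * (1 - cexp (2 * π * I * x)))) := by
  rw [cotPi, cot_pi_eq_exp_ratio]

lemma cexp_two_pi_I_add_int (x : ℂ) (n : ℤ) :
    cexp (2 * π * I * (x + n)) = cexp (2 * π * I * x) := by
  rw [mul_add, Complex.exp_add]
  have : cexp (2 * π * I * n) = 1 := by
    have := Complex.exp_int_mul_two_pi_mul_I n
    rw [← this]; congr 1; ring
  rw [this, mul_one]

lemma cotPi_add_int (x : ℂ) (n : ℤ) : cotPi (x + n) = cotPi x := by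
  rw [cotPi_eq_exp, cotPi_eq_exp, cexp_two_pi_I_add_int]

lemma cotPi_sub_int (x : ℂ) (n : ℤ) : cotPi (x - n) = cotPi x := by
  have := cotPi_add_int x (-n)
  simpa [sub_eq_add_neg] using this

lemma cotPi_neg (x : ℂ) : cotPi (-x) = -cotPi x := by
  simp only [cotPi, mul_neg, Complex.cot, Complex.cos_neg, Complex.sin_neg, div_neg]

/-- For `‖u‖ < 1` (`u = e^{2πix}`, `Im x > 0`): `cotPi x = -πi - 2πi u/(1-u)`. -/
lemma cotPi_eq_of_ne {x : ℂ} (hu : cexp (2 * π * I * x) ≠ 1) :
    cotPi x = -(π * I) - 2 * π * I * (cexp (2 * π * I * x) / (1 - cexp (2 * π * I * x))) := by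
  rw [cotPi_eq_exp]
  have h1 : (1 : ℂ) - cexp (2 * π * I * x) ≠ 0 := sub_ne_zero.mpr (Ne.symm hu)
  generalize cexp (2 * π * I * x) = u at h1 ⊢
  rw [show I * (1 - u) = (1 - u) * I by ring, ← div_div, Complex.div_I]
  field_simp
  ring

lemma norm_cexp_two_pi_I (x : ℂ) : ‖cexp (2 * π * I * x)‖ = Real.exp (-2 * π * x.im) := by
  rw [Complex.norm_exp]
  congr 1
  simp [Complex.mul_re, Complex.mul_im]

lemma cexp_ne_one_of_im_pos {x : ℂ} (hx : 0 < x.im) : cexp (2 * π * I * x) ≠ 1 := by
  intro h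
  have := norm_cexp_two_pi_I x
  rw [h, norm_one] at this
  have h2 : Real.exp (-2 * π * x.im) < 1 := by
    rw [Real.exp_lt_one_iff]
    have := Real.pi_pos
    nlinarith
  linarith

/-- Bound: for `Im x > 0`, `‖cotPi x + πi‖ ≤ 2π t/(1-t)`, `t = e^{-2π Im x}`. -/
lemma norm_cotPi_add_le {x : ℂ} (hx : 0 < x.im) :
    ‖cotPi x + π * I‖ ≤
      2 * π * (Real.exp (-2 * π * x.im) / (1 - Real.exp (-2 * π * x.im))) := by
  have ht1 : Real.exp (-2 * π * x.im) < 1 := by
    rw [Real.exp_lt_one_iff]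
    have := Real.pi_pos
    nlinarith
  rw [cotPi_eq_of_ne (cexp_ne_one_of_im_pos hx)]
  have : -(π * I) - 2 * π * I * (cexp (2 * π * I * x) / (1 - cexp (2 * π * I * x))) + π * I
      = -(2 * π * I * (cexp (2 * π * I * x) / (1 - cexp (2 * π * I * x)))) := by ring
  rw [this, norm_neg, norm_mul, norm_mul, norm_mul, norm_div, Complex.norm_I, mul_one,
    norm_cexp_two_pi_I]
  have h2 : ‖(2 : ℂ)‖ = 2 := by simp
  have h3 : ‖(π : ℂ)‖ = π := by simp [abs_of_pos Real.pi_pos]
  rw [h2, h3]
  have hden : 1 - Real.exp (-2 * π * x.im) ≤ ‖1 - cexp (2 * π * I * x)‖ := by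
    have := norm_sub_norm_le (1 : ℂ) (cexp (2 * π * I * x))
    rw [norm_one, norm_cexp_two_pi_I] at this
    exact this
  have hpos : 0 < 1 - Real.exp (-2 * π * x.im) := by linarith
  gcongr

/-- Bound in the lower half plane. -/
lemma norm_cotPi_sub_le {x : ℂ} (hx : x.im < 0) :
    ‖cotPi x - π * I‖ ≤
      2 * π * (Real.exp (2 * π * x.im) / (1 - Real.exp (2 * π * x.im))) := by
  have h := norm_cotPi_add_le (x := -x) (by simpa using hx)
  rw [cotPi_neg] at h
  have e : -cotPi x + π * I = -(cotPi x - π * I) := by ring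
  rw [e, norm_neg] at h
  simpa using h

/-! ## Row sums -/

lemma summable_inv_mul_inv (x y : ℂ) : Summable (fun n : ℤ => ((x + n) * (y + n))⁻¹) := by
  apply EisensteinSeries.summable_inv_of_isBigO_rpow_inv (a := 2) (by norm_num)
  have h1 := EisensteinSeries.linear_inv_isBigO_right 1 x
  have h2 := EisensteinSeries.linear_inv_isBigO_right 1 y
  simpa [pow_two] using h2.mul h1

lemma natCast_add_one_injective : Function.Injective (fun n : ℕ => ((n : ℤ) + 1)) := by
  intro a b h
  simpa using h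

lemma neg_natCast_add_one_injective : Function.Injective (fun n : ℕ => (-((n : ℤ) + 1))) := by
  intro a b h
  simpa using h

/-- `∑_{n ∈ ℤ} (1/(x+n) - 1/(y+n)) = π cot πx - π cot πy` (absolutely convergent). -/
theorem hasSum_inv_sub_inv {x y : ℂ} (hx : x ∈ integerComplement) (hy : y ∈ integerComplement) :
    HasSum (fun n : ℤ => 1 / (x + n) - 1 / (y + n)) (cotPi x - cotPi y) := by
  set f : ℤ → ℂ := fun n => 1 / (x + n) - 1 / (y + n) with hfdef
  have hf : ∀ n : ℤ, f n = (y - x) * ((x + n) * (y + n))⁻¹ := by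
    intro n
    have h1 := integerComplement_add_ne_zero hx n
    have h2 := integerComplement_add_ne_zero hy n
    simp only [hfdef]
    field_simp
    ring
  have hs : Summable f :=
    ((summable_inv_mul_inv x y).mul_left (y - x)).congr fun n => (hf n).symm
  have hs1 : Summable (fun n : ℕ => f ((n : ℤ) + 1)) :=
    hs.comp_injective natCast_add_one_injective
  have hs2 : Summable (fun n : ℕ => f (-((n : ℤ) + 1))) :=
    hs.comp_injective neg_natCast_add_one_injective
  have hsum := HasSum.of_add_one_of_neg_add_one hs1.hasSum hs2.hasSum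
  have hx' := cot_series_rep' hx
  have hy' := cot_series_rep' hy
  have hsx := summable_cotTerm hx
  have hsy := summable_cotTerm hy
  have e1 : ∑' n : ℕ, f ((n : ℤ) + 1) + ∑' n : ℕ, f (-((n : ℤ) + 1)) =
      ∑' n : ℕ, (cotTerm x n - cotTerm y n) := by
    rw [← Summable.tsum_add hs1 hs2]
    refine tsum_congr fun n => ?_
    simp only [cotTerm, hfdef]
    push_cast
    ring
  have e2 : ∑' n : ℕ, (cotTerm x n - cotTerm y n) =
      (cotPi x - 1 / x) - (cotPi y - 1 / y) := by
    rw [Summable.tsum_sub hsx hsy, cotPi, cotPi, hx', hy']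
  have e3 : f 0 = 1 / x - 1 / y := by simp [hfdef]
  convert hsum using 1
  rw [e3]
  linear_combination -e1 - e2

/-- Zero row: `∑_{n ∈ ℤ} (1/(x+n) - 1/n) = π cot πx` (with `1/0 = 0`). -/
theorem hasSum_inv_sub_inv_zero {x : ℂ} (hx : x ∈ integerComplement) :
    HasSum (fun n : ℤ => 1 / (x + n) - 1 / (n : ℂ)) (cotPi x) := by
  set g : ℤ → ℂ := fun n => 1 / (x + n) - 1 / (n : ℂ) with hg
  have hh : Summable (fun n : ℤ => (-x) * ((x + n) * ((0 : ℂ) + n))⁻¹) :=
    (summable_inv_mul_inv x 0).mul_left _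
  have hgn : ∀ n : ℤ, n ≠ 0 → g n = (-x) * ((x + n) * ((0 : ℂ) + n))⁻¹ := by
    intro n hn
    have h1 := integerComplement_add_ne_zero hx n
    have h2 : (n : ℂ) ≠ 0 := by exact_mod_cast hn
    simp only [hg, zero_add]
    field_simp
    ring
  have hs1 : Summable (fun n : ℕ => g ((n : ℤ) + 1)) := by
    refine (hh.comp_injective natCast_add_one_injective).congr fun n => ?_
    simp only [Function.comp_def]
    rw [hgn _ (by positivity)]
  have hs2 : Summable (fun n : ℕ => g (-((n : ℤ) + 1))) := by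
    refine (hh.comp_injective neg_natCast_add_one_injective).congr fun n => ?_
    simp only [Function.comp_def]
    rw [hgn _ (by
      have : (0 : ℤ) < (n : ℤ) + 1 := by positivity
      omega)]
  have hsum := HasSum.of_add_one_of_neg_add_one hs1.hasSum hs2.hasSum
  have hx' := cot_series_rep' hx
  have e1 : ∑' n : ℕ, g ((n : ℤ) + 1) + ∑' n : ℕ, g (-((n : ℤ) + 1)) = cotPi x - 1 / x := by
    rw [← Summable.tsum_add hs1 hs2, cotPi, hx']
    refine tsum_congr fun n => ?_
    have key : ∀ a : ℂ, 1 / (-a) = -(1 / a) := fun a => by rw [div_neg]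
    simp only [hg]
    push_cast
    rw [key]
    ring
  have e3 : g 0 = 1 / x := by simp [hg]
  convert hsum using 1
  rw [e3]
  linear_combination -e1

end Fermat.Agent.S48.H796
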