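import Mathlib
import Fermat.Agent.S48.H796.Cot

/-!
# S48 / P2-EIS (helper796): the Weierstrass zeta sum and the function `P`

`zetaT τ w = ∑_{ω ∈ ℤτ+ℤ} (1/(w+ω) - 1/ω + w/ω²)` (absolutely convergent, with `1/0 = 0` at `ω = 0`),
its rows, and the identity `zetaT τ w = P τ w + w G₂(τ)`.
-/

set_option autoImplicit false

noncomputable section

namespace Fermat.Agent.S48.H796

open UpperHalfPlane hiding I
open Complex Filter Topology Asymptotics EisensteinSeries
open scoped Real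

/-- The lattice point `m τ + n`. -/
def lat (τ : ℍ) (p : ℤ × ℤ) : ℂ := (p.1 : ℂ) * (τ : ℂ) + (p.2 : ℂ)

/-- The summand of the Weierstrass zeta function (junk value `1/w` at `ω = 0`). -/
def zt (τ : ℍ) (w : ℂ) (p : ℤ × ℤ) : ℂ :=
  1 / (w + lat τ p) - 1 / lat τ p + w / (lat τ p) ^ 2

lemma lat_im (τ : ℍ) (p : ℤ × ℤ) : (lat τ p).im = p.1 * τ.im := by
  simp [lat, Complex.add_im, Complex.mul_im]

lemma lat_eq_zero_iff (τ : ℍ) (p : ℤ × ℤ) : lat τ p = 0 ↔ p = 0 := by
  constructor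
  · intro h
    have him := congrArg Complex.im h
    rw [lat_im] at him
    simp only [Complex.zero_im, mul_eq_zero] at him
    have h1 : p.1 = 0 := by
      rcases him with h1 | h1
      · exact_mod_cast h1
      · exact absurd h1 τ.im_ne_zero
    have h2 : p.2 = 0 := by
      simp only [lat, h1, Int.cast_zero, zero_mul, zero_add] at h
      exact_mod_cast h
    exact Prod.ext h1 h2
  · rintro rfl
    simp [lat]

lemma lat_injective (τ : ℍ) : Function.Injective (lat τ) := by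
  intro p q h
  have : lat τ (p - q) = 0 := by
    simp only [lat, Prod.fst_sub, Prod.snd_sub, Int.cast_sub] at h ⊢
    linear_combination h
  have := (lat_eq_zero_iff τ _).mp this
  exact sub_eq_zero.mp this

lemma zt_eq {τ : ℍ} {w : ℂ} {p : ℤ × ℤ} (h1 : lat τ p ≠ 0) (h2 : w + lat τ p ≠ 0) :
    zt τ w p = w ^ 2 * ((lat τ p)⁻¹ * (lat τ p)⁻¹ * (w + lat τ p)⁻¹) := by
  rw [zt]
  field_simp
  ring

/-- `1/(m τ + n) = O(1/‖(m,n)‖)`. -/
lemma isBigO_lat_inv (τ : ℍ) :
    (fun x : Fin 2 → ℤ => (lat τ (x 0, x 1))⁻¹) =O[cofinite] fun x => ‖x‖⁻¹ := by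
  have := isBigO_linear_add_const_vec τ 0 0
  simpa [lat] using this

lemma tendsto_norm_inv_cofinite :
    Tendsto (fun x : Fin 2 → ℤ => ‖x‖⁻¹) cofinite (𝓝 0) := by
  have h : Tendsto (fun x : Fin 2 → ℤ => ‖x‖) cofinite atTop :=
    tendsto_norm_comp_cofinite_atTop_of_isClosedEmbedding IsClosedEmbedding.id
  exact tendsto_inv_atTop_zero.comp h

/-- `1/(w + m τ + n) = O(1/‖(m,n)‖)` for every `w`. -/
lemma isBigO_add_lat_inv (τ : ℍ) (w : ℂ) :
    (fun x : Fin 2 → ℤ => (w + lat τ (x 0, x 1))⁻¹) =O[cofinite] fun x => ‖x‖⁻¹ := by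
  have hA := isBigO_lat_inv τ
  have hA0 : Tendsto (fun x : Fin 2 → ℤ => (lat τ (x 0, x 1))⁻¹) cofinite (𝓝 0) :=
    hA.trans_tendsto tendsto_norm_inv_cofinite
  have hwA : Tendsto (fun x : Fin 2 → ℤ => w * (lat τ (x 0, x 1))⁻¹) cofinite (𝓝 0) := by
    simpa using hA0.const_mul w
  have hev : ∀ᶠ x : Fin 2 → ℤ in cofinite, ‖w * (lat τ (x 0, x 1))⁻¹‖ < 1 / 2 := by
    have := (tendsto_order.mp (tendsto_zero_iff_norm_tendsto_zero.mp hwA)).2 (1 / 2) (by norm_num)
    exact this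
  have hne : ∀ᶠ x : Fin 2 → ℤ in cofinite, x ≠ 0 := eventually_cofinite_ne 0
  refine IsBigO.trans (IsBigO.of_bound 2 ?_) hA
  filter_upwards [hev, hne] with x hx hx0
  have hl : lat τ (x 0, x 1) ≠ 0 := by
    intro h
    have := (lat_eq_zero_iff τ _).mp h
    apply hx0
    ext i
    fin_cases i
    · simpa using congrArg Prod.fst this
    · simpa using congrArg Prod.snd this
  have e : w + lat τ (x 0, x 1) = lat τ (x 0, x 1) * (1 + w * (lat τ (x 0, x 1))⁻¹) := by
    field_simp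
    ring
  have hge : (1 : ℝ) / 2 ≤ ‖1 + w * (lat τ (x 0, x 1))⁻¹‖ := by
    have := norm_sub_norm_le (1 : ℂ) (-(w * (lat τ (x 0, x 1))⁻¹))
    rw [norm_one, norm_neg, sub_neg_eq_add] at this
    linarith
  rw [e, mul_inv, norm_mul, norm_inv (1 + _), mul_comm]
  have hpos : (0 : ℝ) < ‖1 + w * (lat τ (x 0, x 1))⁻¹‖ := by linarith
  have : ‖1 + w * (lat τ (x 0, x 1))⁻¹‖⁻¹ ≤ 2 := by
    rw [inv_le_comm₀ hpos (by norm_num)]
    linarith
  gcongr

theorem summable_zt (τ : ℍ) (w : ℂ) : Summable (zt τ w) := by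
  refine (finTwoArrowEquiv ℤ).summable_iff.mp ?_
  apply summable_of_isBigO_rpow_norm (a := 3) (by norm_num)
  have hA := isBigO_lat_inv τ
  have hB := isBigO_add_lat_inv τ w
  have hprod := ((hA.mul hA).mul hB).const_mul_left (w ^ 2)
  have hev : (zt τ w ∘ (finTwoArrowEquiv ℤ)) =ᶠ[cofinite] fun x : Fin 2 → ℤ =>
      w ^ 2 * ((lat τ (x 0, x 1))⁻¹ * (lat τ (x 0, x 1))⁻¹ * (w + lat τ (x 0, x 1))⁻¹) := by
    have hne : ∀ᶠ x : Fin 2 → ℤ in cofinite, x ≠ 0 := eventually_cofinite_ne 0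
    have hB0 : Tendsto (fun x : Fin 2 → ℤ => (w + lat τ (x 0, x 1))⁻¹) cofinite (𝓝 0) :=
      hB.trans_tendsto tendsto_norm_inv_cofinite
    by_cases hw : ∃ x : Fin 2 → ℤ, w + lat τ (x 0, x 1) = 0
    · obtain ⟨x₀, hx₀⟩ := hw
      filter_upwards [hne, eventually_cofinite_ne x₀] with x hx hxx
      have hl : lat τ (x 0, x 1) ≠ 0 := by
        intro h
        have := (lat_eq_zero_iff τ _).mp h
        apply hx
        ext i
        fin_cases i
        · simpa using congrArg Prod.fst this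
        · simpa using congrArg Prod.snd this
      have hl2 : w + lat τ (x 0, x 1) ≠ 0 := by
        intro h
        have h3 : lat τ (x 0, x 1) = lat τ (x₀ 0, x₀ 1) := by
          linear_combination h - hx₀
        have := lat_injective τ h3
        apply hxx
        ext i
        fin_cases i
        · simpa using congrArg Prod.fst this
        · simpa using congrArg Prod.snd this
      simpa [Function.comp_def, finTwoArrowEquiv] using zt_eq hl hl2
    · push Not at hw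
      filter_upwards [hne] with x hx
      have hl : lat τ (x 0, x 1) ≠ 0 := by
        intro h
        have := (lat_eq_zero_iff τ _).mp h
        apply hx
        ext i
        fin_cases i
        · simpa using congrArg Prod.fst this
        · simpa using congrArg Prod.snd this
      simpa [Function.comp_def, finTwoArrowEquiv] using zt_eq hl (hw x)
  refine (hev.trans_isBigO hprod).trans ?_
  apply IsBigO.of_bound 1
  filter_upwards with x
  simp only [norm_mul, norm_inv, norm_norm, one_mul]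
  have : ‖x‖ ^ (3 : ℝ) = ‖x‖ * ‖x‖ * ‖x‖ := by
    rw [show (3 : ℝ) = ((3 : ℕ) : ℝ) by norm_num, Real.rpow_natCast]
    ring
  rw [this, Real.norm_of_nonneg (by positivity), mul_inv, mul_inv]

/-! ## Rows -/

/-- `w ∉ ℤτ + ℤ`. -/
def OffLattice (τ : ℍ) (w : ℂ) : Prop := ∀ p : ℤ × ℤ, w + lat τ p ≠ 0

lemma OffLattice.mem_integerComplement {τ : ℍ} {w : ℂ} (h : OffLattice τ w) (m : ℤ) :
    w + (m : ℂ) * τ ∈ integerComplement := by
  rw [mem_integerComplement_iff]
  rintro ⟨n, hn⟩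
  apply h (m, -n)
  simp only [lat, Int.cast_neg]
  linear_combination -hn

lemma mul_mem_integerComplement (τ : ℍ) {m : ℤ} (hm : m ≠ 0) :
    (m : ℂ) * τ ∈ integerComplement := by
  rw [mem_integerComplement_iff]
  rintro ⟨n, hn⟩
  have him := congrArg Complex.im hn
  simp only [Complex.intCast_im, Complex.mul_im, Complex.intCast_re, zero_mul, add_zero] at him
  have h1 : (m : ℝ) * τ.im ≠ 0 := mul_ne_zero (by exact_mod_cast hm) τ.im_ne_zero
  exact h1 him.symm

/-- The Weierstrass zeta sum. -/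
def zetaT (τ : ℍ) (w : ℂ) : ℂ := ∑' p : ℤ × ℤ, zt τ w p

/-- The `m`-th row of `zetaT`. -/
def row (τ : ℍ) (w : ℂ) (m : ℤ) : ℂ :=
  (if m = 0 then cotPi w else cotPi (w + m * τ) - cotPi (m * τ)) + w * e2Summand m τ

theorem hasSum_row {τ : ℍ} {w : ℂ} (h : OffLattice τ w) (m : ℤ) :
    HasSum (fun n : ℤ => zt τ w (m, n)) (row τ w m) := by
  have he : HasSum (fun n : ℤ => w * eisSummand 2 ![m, n] τ) (w * e2Summand m τ) :=
    (e2Summand_summable m τ).hasSum.mul_left w
  have hz : ∀ n : ℤ, zt τ w (m, n) =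
      (1 / (w + m * τ + n) - 1 / ((m : ℂ) * τ + n)) + w * eisSummand 2 ![m, n] τ := by
    intro n
    simp only [zt, lat, eisSummand, Matrix.cons_val_zero, Matrix.cons_val_one,
      Matrix.cons_val_fin_one]
    rw [show (-(2 : ℤ)) = -((2 : ℕ) : ℤ) by norm_num, zpow_neg, zpow_natCast, div_eq_mul_inv w,
      add_assoc]
  simp_rw [hz]
  unfold row
  refine HasSum.add ?_ he
  by_cases hm : m = 0
  · subst hm
    simp only [Int.cast_zero, zero_mul, add_zero, zero_add, if_true]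
    exact hasSum_inv_sub_inv_zero (by simpa using h.mem_integerComplement 0)
  · simp only [hm, if_false]
    exact hasSum_inv_sub_inv (h.mem_integerComplement m) (mul_mem_integerComplement τ hm)

theorem hasSum_row_zetaT {τ : ℍ} {w : ℂ} (h : OffLattice τ w) :
    HasSum (row τ w) (zetaT τ w) :=
  (summable_zt τ w).hasSum.prod_fiberwise (hasSum_row h)

/-! ## Symmetric partial sums -/

lemma sum_Icc_neg (f : ℤ → ℂ) (M : ℕ) :
    ∑ m ∈ Finset.Icc (-(M : ℤ)) M, f m =
      f 0 + ∑ k ∈ Finset.range M, (f ((k : ℤ) + 1) + f (-((k : ℤ) + 1))) := by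
  induction M with
  | zero => simp
  | succ M ih =>
    have hd : Disjoint (Finset.Icc (-(M : ℤ)) M) {-((M : ℤ) + 1), (M : ℤ) + 1} := by
      rw [Finset.disjoint_left]
      intro a ha hb
      simp only [Finset.mem_Icc] at ha
      simp only [Finset.mem_insert, Finset.mem_singleton] at hb
      omega
    have hne : (-((M : ℤ) + 1)) ≠ (M : ℤ) + 1 := by omega
    push_cast
    rw [Finset.Icc_succ_succ, Finset.sum_union hd, ih, Finset.sum_range_succ,
      Finset.sum_pair hne]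
    ring

lemma tendsto_Icc_atTop :
    Tendsto (fun N : ℕ => Finset.Icc (-(N : ℤ)) N) atTop (atTop : Filter (Finset ℤ)) := by
  rw [Tendsto, ← SummationFilter.symmetricIcc_eq_map_Icc_nat]
  exact SummationFilter.le_atTop

lemma tendsto_sum_e2Summand (τ : ℍ) :
    Tendsto (fun N : ℕ => ∑ m ∈ Finset.Icc (-(N : ℤ)) N, e2Summand m τ) atTop (𝓝 (G2 τ)) := by
  have h := hasSum_e2Summand_symmetricIcc τ
  rw [← G2_eq_tsum_cexp] at h
  rw [HasSum, SummationFilter.symmetricIcc_eq_map_Icc_nat, tendsto_map'_iff] at h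
  exact h

/-! ## The function `P` -/

/-- The `k`-th pair of `P`. -/
def pairP (τ : ℍ) (w : ℂ) (k : ℕ) : ℂ :=
  cotPi (w + ((k : ℂ) + 1) * τ) + cotPi (w - ((k : ℂ) + 1) * τ)

/-- `P(w, τ) = π cot πw + ∑_{k ≥ 1} (π cot π(w + kτ) + π cot π(w - kτ))`. -/
def Pfun (τ : ℍ) (w : ℂ) : ℂ := cotPi w + ∑' k : ℕ, pairP τ w k

/-- Uniform version of `norm_cotPi_add_le`. -/
lemma norm_cotPi_add_le' {x : ℂ} {δ : ℝ} (hδ : 0 < δ) (hx : δ ≤ x.im) :
    ‖cotPi x + π * I‖ ≤
      2 * π / (1 - Real.exp (-2 * π * δ)) * Real.exp (-2 * π * x.im) := by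
  have hxpos : 0 < x.im := lt_of_lt_of_le hδ hx
  refine (norm_cotPi_add_le hxpos).trans ?_
  have hπ := Real.pi_pos
  have h1 : Real.exp (-2 * π * x.im) ≤ Real.exp (-2 * π * δ) := by
    apply Real.exp_le_exp.mpr
    nlinarith
  have h2 : Real.exp (-2 * π * δ) < 1 := by
    rw [Real.exp_lt_one_iff]
    nlinarith
  have h3 : 0 < 1 - Real.exp (-2 * π * δ) := by linarith
  have h4 : 0 < 1 - Real.exp (-2 * π * x.im) := by linarith
  rw [div_mul_eq_mul_div, mul_div_assoc]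
  have h5 : Real.exp (-2 * π * x.im) / (1 - Real.exp (-2 * π * x.im)) ≤
      Real.exp (-2 * π * x.im) / (1 - Real.exp (-2 * π * δ)) := by
    apply div_le_div_of_nonneg_left (Real.exp_pos _).le h3
    linarith
  have : (0 : ℝ) ≤ 2 * π := by positivity
  exact mul_le_mul_of_nonneg_left h5 this

lemma norm_cotPi_sub_le' {x : ℂ} {δ : ℝ} (hδ : 0 < δ) (hx : x.im ≤ -δ) :
    ‖cotPi x - π * I‖ ≤
      2 * π / (1 - Real.exp (-2 * π * δ)) * Real.exp (2 * π * x.im) := by
  have h := norm_cotPi_add_le' (x := -x) hδ (by simpa using (by linarith : δ ≤ -x.im))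
  rw [cotPi_neg] at h
  have e : -cotPi x + π * I = -(cotPi x - π * I) := by ring
  rw [e, norm_neg] at h
  simpa using h

/-- Key bound for a pair, when `w` is between the two shifted lines. -/
lemma norm_pairP_le {τ : ℍ} {w : ℂ} {k : ℕ} {δ : ℝ} (hδ : 0 < δ)
    (h1 : δ ≤ w.im + ((k : ℝ) + 1) * τ.im) (h2 : δ ≤ ((k : ℝ) + 1) * τ.im - w.im) :
    ‖pairP τ w k‖ ≤ 2 * π / (1 - Real.exp (-2 * π * δ)) *
      (Real.exp (-2 * π * (w.im + ((k : ℝ) + 1) * τ.im)) +
        Real.exp (-2 * π * (((k : ℝ) + 1) * τ.im - w.im))) := by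
  have im1 : (w + ((k : ℂ) + 1) * τ).im = w.im + ((k : ℝ) + 1) * τ.im := by
    simp [Complex.add_im, Complex.mul_im]
  have im2 : (w - ((k : ℂ) + 1) * τ).im = w.im - ((k : ℝ) + 1) * τ.im := by
    simp [Complex.sub_im, Complex.mul_im]
  have b1 := norm_cotPi_add_le' (x := w + ((k : ℂ) + 1) * τ) hδ (by rw [im1]; exact h1)
  have b2 := norm_cotPi_sub_le' (x := w - ((k : ℂ) + 1) * τ) hδ (by rw [im2]; linarith)
  rw [im1] at b1
  rw [im2] at b2
  have e : pairP τ w k = (cotPi (w + ((k : ℂ) + 1) * τ) + π * I) +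
      (cotPi (w - ((k : ℂ) + 1) * τ) - π * I) := by
    rw [pairP]; ring
  rw [e, mul_add]
  refine (norm_add_le _ _).trans (add_le_add b1 ?_)
  have e2 : -2 * π * (((k : ℝ) + 1) * τ.im - w.im) = 2 * π * (w.im - ((k : ℝ) + 1) * τ.im) := by
    ring
  rw [e2]
  exact b2

lemma exp_neg_mul_le (y s : ℝ) (k : ℕ) (a : ℝ) (ha : -s ≤ a) :
    Real.exp (-2 * π * (a + ((k : ℝ) + 1) * y)) ≤
      Real.exp (2 * π * s) * Real.exp (-2 * π * y) ^ (k + 1) := by
  rw [← Real.exp_nat_mul, ← Real.exp_add]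
  apply Real.exp_le_exp.mpr
  have hπ := Real.pi_pos
  push_cast
  nlinarith

theorem summable_pairP (τ : ℍ) (w : ℂ) : Summable (pairP τ w) := by
  have hy : 0 < τ.im := τ.im_pos
  have hπ := Real.pi_pos
  have hlt : Real.exp (-2 * π * τ.im) < 1 := by
    rw [Real.exp_lt_one_iff]
    nlinarith
  set C : ℝ := 2 * π / (1 - Real.exp (-2 * π * τ.im)) * (2 * Real.exp (2 * π * |w.im|)) with hC
  have hgeo : Summable (fun k : ℕ => C * Real.exp (-2 * π * τ.im) ^ (k + 1)) :=
    ((summable_nat_add_iff 1).mpr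
      (summable_geometric_of_lt_one (Real.exp_pos _).le hlt)).mul_left C
  refine Summable.of_norm_bounded_eventually_nat hgeo ?_
  obtain ⟨K, hK⟩ := exists_nat_ge (|w.im| / τ.im)
  filter_upwards [eventually_ge_atTop K] with k hk
  have hky : |w.im| ≤ k * τ.im := by
    have h1 : |w.im| / τ.im ≤ k := hK.trans (by exact_mod_cast hk)
    rwa [div_le_iff₀ hy] at h1
  have h1 : τ.im ≤ w.im + ((k : ℝ) + 1) * τ.im := by
    nlinarith [neg_abs_le w.im]
  have h2 : τ.im ≤ ((k : ℝ) + 1) * τ.im - w.im := by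
    nlinarith [le_abs_self w.im]
  refine (norm_pairP_le hy h1 h2).trans ?_
  have b1 := exp_neg_mul_le τ.im |w.im| k w.im (neg_abs_le w.im)
  have b2 := exp_neg_mul_le τ.im |w.im| k (-w.im) (by
    have := le_abs_self w.im
    linarith)
  have e2 : -2 * π * (((k : ℝ) + 1) * τ.im - w.im) = -2 * π * (-w.im + ((k : ℝ) + 1) * τ.im) := by
    ring
  rw [e2, hC]
  have hpos : 0 ≤ 2 * π / (1 - Real.exp (-2 * π * τ.im)) := by
    apply div_nonneg (by positivity)
    linarith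
  calc 2 * π / (1 - Real.exp (-2 * π * τ.im)) *
        (Real.exp (-2 * π * (w.im + ((k : ℝ) + 1) * τ.im)) +
          Real.exp (-2 * π * (-w.im + ((k : ℝ) + 1) * τ.im)))
      ≤ 2 * π / (1 - Real.exp (-2 * π * τ.im)) *
        (Real.exp (2 * π * |w.im|) * Real.exp (-2 * π * τ.im) ^ (k + 1) +
          Real.exp (2 * π * |w.im|) * Real.exp (-2 * π * τ.im) ^ (k + 1)) :=
        mul_le_mul_of_nonneg_left (add_le_add b1 b2) hpos
    _ = _ := by ring

lemma row_pair (τ : ℍ) (w : ℂ) (k : ℕ) :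
    row τ w ((k : ℤ) + 1) + row τ w (-((k : ℤ) + 1)) =
      pairP τ w k + w * (e2Summand ((k : ℤ) + 1) τ + e2Summand (-((k : ℤ) + 1)) τ) := by
  have h1 : ((k : ℤ) + 1) ≠ 0 := by positivity
  have h2 : (-((k : ℤ) + 1)) ≠ 0 := by omega
  simp only [row, h1, h2, if_false, pairP]
  push_cast
  have e : cotPi (-((k : ℂ) + 1) * τ) = -cotPi (((k : ℂ) + 1) * τ) := by
    rw [neg_mul, cotPi_neg]
  rw [e]
  ring_nf

/-- `ζ(w; τ) = P(w, τ) + w G₂(τ)`. -/
theorem zetaT_eq {τ : ℍ} {w : ℂ} (h : OffLattice τ w) :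
    zetaT τ w = Pfun τ w + w * G2 τ := by
  have T1 : Tendsto (fun M : ℕ => ∑ m ∈ Finset.Icc (-(M : ℤ)) M, row τ w m) atTop
      (𝓝 (zetaT τ w)) := (hasSum_row_zetaT h).comp tendsto_Icc_atTop
  have T2 : ∀ M : ℕ, ∑ m ∈ Finset.Icc (-(M : ℤ)) M, row τ w m =
      cotPi w + ∑ k ∈ Finset.range M, pairP τ w k +
        w * ∑ m ∈ Finset.Icc (-(M : ℤ)) M, e2Summand m τ := by
    intro M
    rw [sum_Icc_neg, sum_Icc_neg (fun m => e2Summand m τ)]
    simp_rw [row_pair]
    rw [Finset.sum_add_distrib, ← Finset.mul_sum]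
    simp only [row, if_true]
    ring
  have T3 := tendsto_sum_e2Summand τ
  have T4 : Tendsto (fun M : ℕ => ∑ k ∈ Finset.range M, pairP τ w k) atTop
      (𝓝 (∑' k, pairP τ w k)) := (summable_pairP τ w).hasSum.tendsto_sum_nat
  have T5 : Tendsto (fun M : ℕ => ∑ m ∈ Finset.Icc (-(M : ℤ)) M, row τ w m) atTop
      (𝓝 (cotPi w + ∑' k, pairP τ w k + w * G2 τ)) := by
    simp_rw [T2]
    exact (tendsto_const_nhds.add T4).add (T3.const_mul w)
  exact tendsto_nhds_unique T1 T5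

end Fermat.Agent.S48.H796
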