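import Mathlib
import Fermat.Agent.S48.H796.ZetaSum

/-!
# S48 / P2-EIS (helper796): transformation laws of `P`

* `Pfun_S` : `P(w/τ, -1/τ) = τ P(w, τ) + 2πi w`
* `Pfun_T` : `P(w, τ+1) = P(w, τ)`
* `Pfun_add_lat` : `P(w + mτ + n, τ) = P(w, τ) - 2πi m`
-/

set_option autoImplicit false

noncomputable section

namespace Fermat.Agent.S48.H796

open UpperHalfPlane hiding I
open Complex Filter Topology EisensteinSeries ModularGroup
open scoped Real

theorem coe_S_smul (τ : ℍ) : ((S • τ : ℍ) : ℂ) = -1 / (τ : ℂ) := by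
  rw [UpperHalfPlane.modular_S_smul]
  simp [neg_div, inv_neg]

theorem coe_T_smul (τ : ℍ) : ((T • τ : ℍ) : ℂ) = (τ : ℂ) + 1 := by
  rw [UpperHalfPlane.modular_T_smul]
  simp [add_comm]

lemma lat_S (τ : ℍ) (p : ℤ × ℤ) : lat (S • τ) p = lat τ (p.2, -p.1) / τ := by
  have hτ : (τ : ℂ) ≠ 0 := ne_zero τ
  simp only [lat, coe_S_smul, Int.cast_neg]
  field_simp
  ring

lemma zt_S (τ : ℍ) (w : ℂ) (p : ℤ × ℤ) :
    zt (S • τ) (w / τ) p = τ * zt τ w (p.2, -p.1) := by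
  have hτ : (τ : ℂ) ≠ 0 := ne_zero τ
  simp only [zt, lat_S]
  generalize lat τ (p.2, -p.1) = L
  rw [← add_div, one_div_div, one_div_div, div_pow, div_div_eq_mul_div, div_mul_eq_mul_div,
    div_div]
  have e : w * (τ : ℂ) ^ 2 / (τ * L ^ 2) = τ * (w / L ^ 2) := by
    rw [pow_two, mul_div_assoc, mul_div_mul_left _ _ hτ]
    ring
  rw [e]
  ring

/-- The rotation `(m, n) ↦ (n, -m)` of `ℤ²`. -/
def rotEquiv : ℤ × ℤ ≃ ℤ × ℤ where
  toFun p := (p.2, -p.1)
  invFun p := (-p.2, p.1)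
  left_inv p := by simp
  right_inv p := by simp

theorem zetaT_S (τ : ℍ) (w : ℂ) : zetaT (S • τ) (w / τ) = τ * zetaT τ w := by
  unfold zetaT
  simp_rw [zt_S]
  rw [tsum_mul_left]
  congr 1
  exact rotEquiv.tsum_eq (zt τ w)

lemma OffLattice.S {τ : ℍ} {w : ℂ} (h : OffLattice τ w) : OffLattice (S • τ) (w / τ) := by
  intro p
  rw [lat_S, ← add_div]
  exact div_ne_zero (h _) (ne_zero τ)

lemma G2_S (τ : ℍ) : G2 (S • τ) = (τ : ℂ) ^ 2 * G2 τ - 2 * π * I * τ := by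
  have h := G2_S_transform τ
  have hτ : (τ : ℂ) ≠ 0 := ne_zero τ
  have : G2 (S • τ) = (τ : ℂ) ^ 2 * (G2 τ + -2 * π * I / τ) := by
    rw [h]
    field_simp
    ring
  rw [this]
  field_simp
  ring

/-- **S-law** of `P`. -/
theorem Pfun_S {τ : ℍ} {w : ℂ} (h : OffLattice τ w) :
    Pfun (S • τ) (w / τ) = τ * Pfun τ w + 2 * π * I * w := by
  have h1 := zetaT_eq h
  have h2 := zetaT_eq h.S
  have h3 := zetaT_S τ w
  have hτ : (τ : ℂ) ≠ 0 := ne_zero τ
  rw [h1, h2, G2_S] at h3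
  have e : w / (τ : ℂ) * ((τ : ℂ) ^ 2 * G2 τ - 2 * π * I * τ) = w * τ * G2 τ - 2 * π * I * w := by
    field_simp
  rw [e] at h3
  linear_combination h3

lemma pairP_T (τ : ℍ) (w : ℂ) (k : ℕ) : pairP (T • τ) w k = pairP τ w k := by
  simp only [pairP, coe_T_smul]
  have e1 : w + ((k : ℂ) + 1) * ((τ : ℂ) + 1) = (w + ((k : ℂ) + 1) * τ) + ((k + 1 : ℕ) : ℤ) := by
    push_cast; ring
  have e2 : w - ((k : ℂ) + 1) * ((τ : ℂ) + 1) = (w - ((k : ℂ) + 1) * τ) - ((k + 1 : ℕ) : ℤ) := by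
    push_cast; ring
  rw [e1, e2, cotPi_add_int, cotPi_sub_int]

/-- **T-law** of `P`. -/
theorem Pfun_T (τ : ℍ) (w : ℂ) : Pfun (T • τ) w = Pfun τ w := by
  simp only [Pfun, pairP_T]

lemma pairP_add_int (τ : ℍ) (w : ℂ) (n : ℤ) (k : ℕ) : pairP τ (w + n) k = pairP τ w k := by
  simp only [pairP]
  have e1 : w + n + ((k : ℂ) + 1) * (τ : ℂ) = (w + ((k : ℂ) + 1) * τ) + n := by ring
  have e2 : w + n - ((k : ℂ) + 1) * (τ : ℂ) = (w - ((k : ℂ) + 1) * τ) + n := by ring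
  rw [e1, e2, cotPi_add_int, cotPi_add_int]

theorem Pfun_add_int (τ : ℍ) (w : ℂ) (n : ℤ) : Pfun τ (w + n) = Pfun τ w := by
  simp only [Pfun, pairP_add_int, cotPi_add_int]

lemma OffLattice.add_lat {τ : ℍ} {w : ℂ} (h : OffLattice τ w) (q : ℤ × ℤ) :
    OffLattice τ (w + lat τ q) := by
  intro p
  have := h (p + q)
  simp only [lat, Prod.fst_add, Prod.snd_add, Int.cast_add] at this ⊢
  intro h0
  apply this
  linear_combination h0

lemma OffLattice.of_add_lat {τ : ℍ} {w : ℂ} (q : ℤ × ℤ) (h : OffLattice τ (w + lat τ q)) :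
    OffLattice τ w := by
  have := h.add_lat (-q)
  have e : w + lat τ q + lat τ (-q) = w := by
    simp only [lat, Prod.fst_neg, Prod.snd_neg, Int.cast_neg]
    ring
  rwa [e] at this

theorem Pfun_add_tau {τ : ℍ} {w : ℂ} (h : OffLattice τ w) :
    Pfun τ (w + τ) = Pfun τ w - 2 * π * I := by
  have hτ : (τ : ℂ) ≠ 0 := ne_zero τ
  have h' : OffLattice τ (w + τ) := by
    have := h.add_lat (1, 0)
    simpa [lat] using this
  have h1 := Pfun_S h
  have h2 := Pfun_S h'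
  have e : (w + (τ : ℂ)) / τ = w / τ + ((1 : ℤ) : ℂ) := by
    field_simp
    push_cast
    ring
  rw [e, Pfun_add_int, h1] at h2
  have h3 : (τ : ℂ) * (Pfun τ (w + τ) - (Pfun τ w - 2 * π * I)) = 0 := by
    linear_combination -h2
  rcases mul_eq_zero.mp h3 with h4 | h4
  · exact absurd h4 hτ
  · exact sub_eq_zero.mp h4

theorem Pfun_add_mul_tau {τ : ℍ} {w : ℂ} (h : OffLattice τ w) (m : ℤ) :
    Pfun τ (w + m * τ) = Pfun τ w - 2 * π * I * m := by
  induction m using Int.induction_on with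
  | zero => simp
  | succ i ih =>
    have h' : OffLattice τ (w + (i : ℂ) * τ) := by
      have := h.add_lat ((i : ℤ), 0)
      simpa [lat] using this
    have := Pfun_add_tau h'
    have e : w + ((i : ℤ) + 1 : ℤ) * (τ : ℂ) = w + (i : ℂ) * τ + τ := by push_cast; ring
    rw [e, this]
    push_cast at ih ⊢
    rw [ih]
    ring
  | pred i ih =>
    have h' : OffLattice τ (w + ((-(i : ℤ) - 1 : ℤ) : ℂ) * τ) := by
      have := h.add_lat ((-(i : ℤ) - 1), 0)
      simpa [lat] using this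
    have := Pfun_add_tau h'
    have e : w + ((-(i : ℤ) - 1 : ℤ) : ℂ) * (τ : ℂ) + τ = w + ((-(i : ℤ) : ℤ) : ℂ) * τ := by
      push_cast; ring
    rw [e, ih] at this
    push_cast at this ⊢
    linear_combination -this

theorem Pfun_add_lat {τ : ℍ} {w : ℂ} (h : OffLattice τ w) (m n : ℤ) :
    Pfun τ (w + lat τ (m, n)) = Pfun τ w - 2 * π * I * m := by
  have e : w + lat τ (m, n) = (w + (m : ℂ) * τ) + n := by
    simp only [lat]; ring
  rw [e, Pfun_add_int, Pfun_add_mul_tau h]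

end Fermat.Agent.S48.H796
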