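import Mathlib
import Fermat.Agent.S48.H796.PTransform

/-!
# S48 / P2-EIS (helper796): the family `F_v` of weight-one "Eisenstein" functions

`Fv N v τ = P((aτ+b)/N, τ) + 2πi a/N` for `v = (a, b) ∉ Nℤ²` satisfies
`F_v ∣[1] γ = F_{vγ}` for all `γ ∈ SL₂(ℤ)` and `F_{v + N q} = F_v`.
-/

set_option autoImplicit false

noncomputable section

namespace Fermat.Agent.S48.H796

open UpperHalfPlane hiding I
open Complex Filter Topology EisensteinSeries ModularGroup ModularForm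
open scoped Real MatrixGroups

/-- The family of weight-one functions. -/
def Fv (N : ℕ) (v : ℤ × ℤ) (τ : ℍ) : ℂ :=
  Pfun τ (lat τ v / N) + 2 * π * I * v.1 / N

/-- `v ∉ Nℤ²`. -/
def NotDiv (N : ℕ) (v : ℤ × ℤ) : Prop := ¬ ((N : ℤ) ∣ v.1 ∧ (N : ℤ) ∣ v.2)

/-- Right action of `SL₂(ℤ)` on row vectors. -/
def vmul (v : ℤ × ℤ) (γ : SL(2, ℤ)) : ℤ × ℤ :=
  (v.1 * γ 0 0 + v.2 * γ 1 0, v.1 * γ 0 1 + v.2 * γ 1 1)

lemma vmul_one (v : ℤ × ℤ) : vmul v 1 = v := by
  simp [vmul]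

lemma vmul_mul (v : ℤ × ℤ) (g h : SL(2, ℤ)) : vmul v (g * h) = vmul (vmul v g) h := by
  simp only [vmul, Matrix.SpecialLinearGroup.coe_mul, Matrix.mul_apply, Fin.sum_univ_two]
  ext <;> ring

lemma vmul_S (v : ℤ × ℤ) : vmul v S = (v.2, -v.1) := by
  simp [vmul, ModularGroup.S]

lemma vmul_T (v : ℤ × ℤ) : vmul v T = (v.1, v.1 + v.2) := by
  simp [vmul, ModularGroup.T]

lemma NotDiv.vmul {N : ℕ} {v : ℤ × ℤ} (hv : NotDiv N v) (γ : SL(2, ℤ)) :
    NotDiv N (vmul v γ) := by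
  intro h
  apply hv
  have e : v = Fermat.Agent.S48.H796.vmul (Fermat.Agent.S48.H796.vmul v γ) γ⁻¹ := by
    rw [← vmul_mul, mul_inv_cancel, vmul_one]
  rw [e]
  obtain ⟨h1, h2⟩ := h
  constructor
  · exact dvd_add (Dvd.dvd.mul_right h1 _) (Dvd.dvd.mul_right h2 _)
  · exact dvd_add (Dvd.dvd.mul_right h1 _) (Dvd.dvd.mul_right h2 _)

lemma lat_add (τ : ℍ) (p q : ℤ × ℤ) : lat τ (p + q) = lat τ p + lat τ q := by
  simp only [lat, Prod.fst_add, Prod.snd_add, Int.cast_add]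
  ring

lemma lat_smul (τ : ℍ) (n : ℤ) (p : ℤ × ℤ) : lat τ (n * p.1, n * p.2) = n * lat τ p := by
  simp only [lat, Int.cast_mul]
  ring

theorem offLattice_of_notDiv {N : ℕ} (hN : N ≠ 0) {v : ℤ × ℤ} (hv : NotDiv N v) (τ : ℍ) :
    OffLattice τ (lat τ v / N) := by
  intro p h
  apply hv
  have hN' : (N : ℂ) ≠ 0 := by exact_mod_cast hN
  have h1 : lat τ (v + ((N : ℤ) * p.1, (N : ℤ) * p.2)) = 0 := by
    rw [lat_add, lat_smul]
    have : lat τ v + (N : ℂ) * lat τ p = N * (lat τ v / N + lat τ p) := by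
      field_simp
    push_cast
    rw [this, h, mul_zero]
  have h2 := (lat_eq_zero_iff τ _).mp h1
  have h3 := congrArg Prod.fst h2
  have h4 := congrArg Prod.snd h2
  simp only [Prod.fst_add, Prod.snd_add, Prod.fst_zero, Prod.snd_zero] at h3 h4
  exact ⟨⟨-p.1, by linarith⟩, ⟨-p.2, by linarith⟩⟩

/-- **S-law** of the family. -/
theorem Fv_S {N : ℕ} (hN : N ≠ 0) {v : ℤ × ℤ} (hv : NotDiv N v) (τ : ℍ) :
    Fv N v (S • τ) = τ * Fv N (v.2, -v.1) τ := by
  have hN' : (N : ℂ) ≠ 0 := by exact_mod_cast hN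
  have hτ : (τ : ℂ) ≠ 0 := ne_zero τ
  have hv' : NotDiv N (v.2, -v.1) := by
    intro h
    apply hv
    exact ⟨(dvd_neg.mp h.2), h.1⟩
  have hoff := offLattice_of_notDiv hN hv' τ
  have e : lat (S • τ) v / N = (lat τ (v.2, -v.1) / N) / τ := by
    rw [lat_S]
    field_simp
  rw [Fv, e, Pfun_S hoff, Fv]
  simp only [lat, Int.cast_neg]
  field_simp
  ring

/-- **T-law** of the family. -/
theorem Fv_T (N : ℕ) (v : ℤ × ℤ) (τ : ℍ) :
    Fv N v (T • τ) = Fv N (v.1, v.1 + v.2) τ := by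
  have e : lat (T • τ) v = lat τ (v.1, v.1 + v.2) := by
    simp only [lat, coe_T_smul, Int.cast_add]
    ring
  rw [Fv, e, Pfun_T, Fv]

/-- **Periodicity** in `v`. -/
theorem Fv_add {N : ℕ} (hN : N ≠ 0) {v : ℤ × ℤ} (hv : NotDiv N v) (q : ℤ × ℤ) (τ : ℍ) :
    Fv N (v.1 + N * q.1, v.2 + N * q.2) τ = Fv N v τ := by
  have hN' : (N : ℂ) ≠ 0 := by exact_mod_cast hN
  have hoff := offLattice_of_notDiv hN hv τ
  have e : lat τ (v.1 + N * q.1, v.2 + N * q.2) / N = lat τ v / N + lat τ (q.1, q.2) := by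
    simp only [lat, Int.cast_add, Int.cast_mul, Int.cast_natCast]
    field_simp
    ring
  rw [Fv, e, Pfun_add_lat hoff, Fv]
  push_cast
  field_simp
  ring

/-- The family is permuted by the weight-one slash action of `SL₂(ℤ)`. -/
theorem Fv_slash {N : ℕ} (hN : N ≠ 0) (γ : SL(2, ℤ)) :
    ∀ v : ℤ × ℤ, NotDiv N v → (Fv N v) ∣[(1 : ℤ)] γ = Fv N (vmul v γ) := by
  have hγ : γ ∈ Subgroup.closure {S, T} := by simp [SpecialLinearGroup.SL2Z_generators]
  induction hγ using Subgroup.closure_induction with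
  | one =>
    intro v _
    rw [SlashAction.slash_one, vmul_one]
  | mem g hg =>
    intro v hv
    simp only [Set.mem_insert_iff, Set.mem_singleton_iff] at hg
    rcases hg with rfl | rfl
    · ext τ
      have hτ : (τ : ℂ) ≠ 0 := ne_zero τ
      rw [SlashInvariantForm.slash_S_apply, ← modular_S_smul, Fv_S hN hv, vmul_S]
      rw [show (-(1 : ℤ)) = -((1 : ℕ) : ℤ) by norm_num, zpow_neg, zpow_natCast, pow_one]
      field_simp
    · ext τ
      rw [SL_slash_apply, Fv_T, vmul_T, ModularGroup.denom_apply]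
      simp [ModularGroup.T]
  | mul g h _ _ ig ih =>
    intro v hv
    rw [SlashAction.slash_mul, ig v hv, ih _ (hv.vmul g), vmul_mul]
  | inv g _ ig =>
    intro v hv
    have h1 := ig (vmul v g⁻¹) (hv.vmul g⁻¹)
    rw [← vmul_mul, inv_mul_cancel, vmul_one] at h1
    rw [← h1, ← SlashAction.slash_mul, mul_inv_cancel, SlashAction.slash_one]

end Fermat.Agent.S48.H796
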