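import Mathlib
import Fermat.Agent.S48.H796.Family

/-!
# S48 / P2-EIS (helper796): `q`-expansion of `F_(0,b)`

`P(b/N, τ) = π cot(πb/N) + ∑_{n ≥ 1} (∑_{j ∣ n} s_j) qⁿ`, `s_j = 2πi (ζ^{-j} - ζ^{j})`,
`ζ = e^{2πi b/N}`, `q = e^{2πiτ}`.
-/

set_option autoImplicit false

noncomputable section

namespace Fermat.Agent.S48.H796

open UpperHalfPlane hiding I
open Complex Filter Topology
open scoped Real

/-- `q = e^{2πiτ}`. -/
def qq (τ : ℍ) : ℂ := cexp (2 * π * I * τ)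

lemma norm_qq_lt_one (τ : ℍ) : ‖qq τ‖ < 1 := UpperHalfPlane.norm_exp_two_pi_I_lt_one τ

/-- The root of unity `e^{2πi b/N}`. -/
def zetaB (N : ℕ) (b : ℤ) : ℂ := cexp (2 * π * I * b / N)

lemma norm_zetaB (N : ℕ) (b : ℤ) : ‖zetaB N b‖ = 1 := by
  rw [zetaB, Complex.norm_exp]
  have : (2 * (π : ℂ) * I * b / N).re = 0 := by
    have e : 2 * (π : ℂ) * I * b / N = ((2 * π * b / N : ℝ) : ℂ) * I := by
      push_cast; ring
    rw [e, Complex.re_ofReal_mul, Complex.I_re, mul_zero]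
  rw [this, Real.exp_zero]

lemma zetaB_ne_zero (N : ℕ) (b : ℤ) : zetaB N b ≠ 0 := Complex.exp_ne_zero _

/-- `s_j = 2πi (ζ^{-j} - ζ^{j})`. -/
def sCoef (N : ℕ) (b : ℤ) (j : ℕ) : ℂ := 2 * π * I * ((zetaB N b)⁻¹ ^ j - zetaB N b ^ j)

lemma norm_sCoef_le (N : ℕ) (b : ℤ) (j : ℕ) : ‖sCoef N b j‖ ≤ 4 * π := by
  rw [sCoef, norm_mul, norm_mul, norm_mul, Complex.norm_I, mul_one]
  have h2 : ‖(2 : ℂ)‖ = 2 := by simp
  have h3 : ‖(π : ℂ)‖ = π := by simp [abs_of_pos Real.pi_pos]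
  rw [h2, h3]
  have h4 : ‖(zetaB N b)⁻¹ ^ j - zetaB N b ^ j‖ ≤ 2 := by
    refine (norm_sub_le _ _).trans ?_
    rw [norm_pow, norm_pow, norm_inv, norm_zetaB]
    norm_num
  nlinarith [Real.pi_pos]

lemma hasSum_geom_succ {u : ℂ} (hu : ‖u‖ < 1) :
    HasSum (fun j : ℕ => u ^ (j + 1)) (u / (1 - u)) := by
  have h := (hasSum_geometric_of_norm_lt_one hu).mul_left u
  rw [← div_eq_mul_inv] at h
  have e : (fun j : ℕ => u ^ (j + 1)) = fun i => u * u ^ i := by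
    funext j; rw [pow_succ']
  rw [e]; exact h

/-- Summability of a bounded-coefficient Lambert double series on `ℕ+ × ℕ+`. -/
lemma summable_lambert_pnat (s : ℕ → ℂ) (C : ℝ) (hs : ∀ j, ‖s j‖ ≤ C) {r : ℂ} (hr : ‖r‖ < 1) :
    Summable (fun c : ℕ+ × ℕ+ => s c.2 * r ^ ((c.1 : ℕ) * (c.2 : ℕ))) := by
  have h0 : Summable (fun c : ℕ+ × ℕ+ => (((c.2 : ℕ) : ℝ)) ^ 0 * ‖r‖ ^ ((c.1 : ℕ) * (c.2 : ℕ))) :=
    summable_prod_mul_pow (𝕜 := ℝ) 0 (r := ‖r‖) (by rwa [norm_norm])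
  refine Summable.of_norm_bounded (h0.mul_left C) ?_
  intro c
  rw [norm_mul, norm_pow, pow_zero, one_mul]
  exact mul_le_mul_of_nonneg_right (hs _) (by positivity)

/-- Regrouping a Lambert double series by `n = d * c`. -/
theorem hasSum_lambert_regroup (s : ℕ → ℂ) (C : ℝ) (hs : ∀ j, ‖s j‖ ≤ C) {r : ℂ} (hr : ‖r‖ < 1)
    (P : ℕ → ℂ) (hP : ∀ k : ℕ, HasSum (fun j : ℕ => s (j + 1) * r ^ ((k + 1) * (j + 1))) (P k)) :
    ∃ A, HasSum P A ∧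
      HasSum (fun n : ℕ => (∑ j ∈ (n + 1).divisors, s j) * r ^ (n + 1)) A := by
  have hsum := summable_lambert_pnat s C hs hr
  refine ⟨∑' c : ℕ+ × ℕ+, s c.2 * r ^ ((c.1 : ℕ) * (c.2 : ℕ)), ?_, ?_⟩
  · -- fibrewise
    have hfib : ∀ d : ℕ+, HasSum (fun c : ℕ+ => s c * r ^ ((d : ℕ) * (c : ℕ)))
        (P (Equiv.pnatEquivNat d)) := by
      intro d
      have h := hP (Equiv.pnatEquivNat d)
      rw [← Equiv.pnatEquivNat.hasSum_iff] at h
      convert h using 2 with c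
      simp only [Function.comp_apply, Equiv.pnatEquivNat_apply, PNat.natPred_add_one]
    have h1 := hsum.hasSum.prod_fiberwise hfib
    rw [← Equiv.pnatEquivNat.hasSum_iff]
    exact h1
  · have h2 := (sigmaAntidiagonalEquivProd.hasSum_iff).mpr hsum.hasSum
    have h3 := h2.sigma (g := fun n : ℕ+ => (∑ j ∈ (n : ℕ).divisors, s j) * r ^ (n : ℕ)) (by
      intro n
      have h4 := hasSum_fintype (fun x : (n : ℕ).divisorsAntidiagonal =>
        ((fun c : ℕ+ × ℕ+ => s c.2 * r ^ ((c.1 : ℕ) * (c.2 : ℕ))) ∘ sigmaAntidiagonalEquivProd)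
          ⟨n, x⟩)
      convert h4 using 1
      rw [Finset.sum_mul]
      have e1 : ∀ x : (n : ℕ).divisorsAntidiagonal,
          ((fun c : ℕ+ × ℕ+ => s c.2 * r ^ ((c.1 : ℕ) * (c.2 : ℕ))) ∘ sigmaAntidiagonalEquivProd)
            ⟨n, x⟩ = s x.1.2 * r ^ (n : ℕ) := by
        intro x
        have hx := (Nat.mem_divisorsAntidiagonal.mp x.2).1
        simp only [Function.comp_apply, sigmaAntidiagonalEquivProd, divisorsAntidiagonalFactors,
          Equiv.coe_fn_mk, PNat.mk_coe, hx]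
      rw [Finset.sum_congr rfl (fun x _ => e1 x),
        Finset.sum_coe_sort (n : ℕ).divisorsAntidiagonal (fun x : ℕ × ℕ => s x.2 * r ^ (n : ℕ)),
        Nat.sum_divisorsAntidiagonal' (fun _ j => s j * r ^ (n : ℕ))])
    rw [← Equiv.pnatEquivNat.hasSum_iff]
    convert h3 using 2 with n
    simp only [Function.comp_apply, Equiv.pnatEquivNat_apply, PNat.natPred_add_one]

lemma cexp_pair_add (N : ℕ) (b : ℤ) (τ : ℍ) (k : ℕ) :
    cexp (2 * π * I * ((b : ℂ) / N + ((k : ℂ) + 1) * τ)) = zetaB N b * qq τ ^ (k + 1) := by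
  rw [zetaB, qq, ← Complex.exp_nat_mul, ← Complex.exp_add]
  congr 1
  push_cast
  ring

lemma cexp_pair_sub (N : ℕ) (b : ℤ) (τ : ℍ) (k : ℕ) :
    cexp (2 * π * I * (-((b : ℂ) / N - ((k : ℂ) + 1) * τ))) =
      (zetaB N b)⁻¹ * qq τ ^ (k + 1) := by
  rw [zetaB, qq, ← Complex.exp_neg, ← Complex.exp_nat_mul, ← Complex.exp_add]
  congr 1
  push_cast
  ring

lemma norm_qq_pow_lt_one (τ : ℍ) (k : ℕ) : ‖qq τ ^ (k + 1)‖ < 1 := by
  rw [norm_pow]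
  exact pow_lt_one₀ (norm_nonneg _) (norm_qq_lt_one τ) (by omega)

/-- Expansion of the `k`-th pair at a rational point `b/N`. -/
theorem hasSum_pairP (N : ℕ) (b : ℤ) (τ : ℍ) (k : ℕ) :
    HasSum (fun j : ℕ => sCoef N b (j + 1) * qq τ ^ ((k + 1) * (j + 1)))
      (pairP τ ((b : ℂ) / N) k) := by
  have hq := norm_qq_pow_lt_one τ k
  have hu₁ : ‖zetaB N b * qq τ ^ (k + 1)‖ < 1 := by
    rw [norm_mul, norm_zetaB, one_mul]; exact hq
  have hu₂ : ‖(zetaB N b)⁻¹ * qq τ ^ (k + 1)‖ < 1 := by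
    rw [norm_mul, norm_inv, norm_zetaB, inv_one, one_mul]; exact hq
  have h1 := hasSum_geom_succ hu₁
  have h2 := hasSum_geom_succ hu₂
  have h3 := (h2.sub h1).mul_left (2 * π * I)
  have hne1 : cexp (2 * π * I * ((b : ℂ) / N + ((k : ℂ) + 1) * τ)) ≠ 1 := by
    rw [cexp_pair_add]
    intro h
    rw [h, norm_one] at hu₁
    exact lt_irrefl _ hu₁
  have hne2 : cexp (2 * π * I * (-((b : ℂ) / N - ((k : ℂ) + 1) * τ))) ≠ 1 := by
    rw [cexp_pair_sub]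
    intro h
    rw [h, norm_one] at hu₂
    exact lt_irrefl _ hu₂
  have hv : pairP τ ((b : ℂ) / N) k =
      2 * π * I * ((zetaB N b)⁻¹ * qq τ ^ (k + 1) / (1 - (zetaB N b)⁻¹ * qq τ ^ (k + 1)) -
        zetaB N b * qq τ ^ (k + 1) / (1 - zetaB N b * qq τ ^ (k + 1))) := by
    have e2 : cotPi ((b : ℂ) / N - ((k : ℂ) + 1) * τ) =
        -cotPi (-((b : ℂ) / N - ((k : ℂ) + 1) * τ)) := by
      rw [cotPi_neg, neg_neg]
    rw [pairP, cotPi_eq_of_ne hne1, e2, cotPi_eq_of_ne hne2, cexp_pair_add, cexp_pair_sub]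
    ring
  rw [hv]
  have e3 : (fun j : ℕ => sCoef N b (j + 1) * qq τ ^ ((k + 1) * (j + 1))) =
      fun j : ℕ => 2 * π * I * (((zetaB N b)⁻¹ * qq τ ^ (k + 1)) ^ (j + 1) -
        (zetaB N b * qq τ ^ (k + 1)) ^ (j + 1)) := by
    funext j
    simp only [sCoef]
    rw [mul_pow, mul_pow, ← pow_mul]
    ring
  rw [e3]
  exact h3

/-- The `q`-expansion coefficients of `F_(0,b)`. -/
def qCo (N : ℕ) (b : ℤ) (n : ℕ) : ℂ :=
  if n = 0 then cotPi ((b : ℂ) / N) else ∑ j ∈ n.divisors, sCoef N b j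

@[simp] lemma qCo_zero (N : ℕ) (b : ℤ) : qCo N b 0 = cotPi ((b : ℂ) / N) := by simp [qCo]

lemma qCo_succ (N : ℕ) (b : ℤ) (n : ℕ) :
    qCo N b (n + 1) = ∑ j ∈ (n + 1).divisors, sCoef N b j := by simp [qCo]

lemma qCo_of_pos (N : ℕ) (b : ℤ) {n : ℕ} (hn : 1 ≤ n) :
    qCo N b n = ∑ j ∈ n.divisors, sCoef N b j := by
  rw [qCo, if_neg (by omega)]

lemma norm_qCo_succ_le (N : ℕ) (b : ℤ) (n : ℕ) : ‖qCo N b (n + 1)‖ ≤ 4 * π * (n + 1) := by
  rw [qCo_succ]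
  refine (norm_sum_le _ _).trans ?_
  refine (Finset.sum_le_sum (fun j _ => norm_sCoef_le N b j)).trans ?_
  rw [Finset.sum_const, nsmul_eq_mul, mul_comm]
  have h := Nat.card_divisors_le_self (n + 1)
  have hπ := Real.pi_pos
  have h' : (((n + 1).divisors.card : ℕ) : ℝ) ≤ (n : ℝ) + 1 := by exact_mod_cast h
  nlinarith

/-- **`q`-expansion of `P(b/N, τ)`**. -/
theorem hasSum_Pfun_rat (N : ℕ) (b : ℤ) (τ : ℍ) :
    HasSum (fun n : ℕ => qCo N b n * qq τ ^ n) (Pfun τ ((b : ℂ) / N)) := by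
  obtain ⟨A, hA1, hA2⟩ := hasSum_lambert_regroup (sCoef N b) (4 * π) (norm_sCoef_le N b)
    (norm_qq_lt_one τ) (pairP τ ((b : ℂ) / N)) (hasSum_pairP N b τ)
  have e : Pfun τ ((b : ℂ) / N) = cotPi ((b : ℂ) / N) + A := by rw [Pfun, hA1.tsum_eq]
  rw [e]
  have h := HasSum.zero_add (f := fun n => qCo N b n * qq τ ^ n) (m := A) (by
    convert hA2 using 2 with n
    rw [qCo_succ])
  simpa using h

lemma Fv_zero_left (N : ℕ) (b : ℤ) (τ : ℍ) : Fv N (0, b) τ = Pfun τ ((b : ℂ) / N) := by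
  simp [Fv, lat]

/-- **`q`-expansion of `F_(0,b)`**. -/
theorem hasSum_Fv_zero (N : ℕ) (b : ℤ) (τ : ℍ) :
    HasSum (fun n : ℕ => qCo N b n * qq τ ^ n) (Fv N (0, b) τ) := by
  rw [Fv_zero_left]
  exact hasSum_Pfun_rat N b τ

end Fermat.Agent.S48.H796
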