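import Mathlib
import Fermat.Agent.S48.H796.QExp

/-!
# S48 / P2-EIS (helper796): every `F_v` is bounded at `i∞`

Together with `Fv_slash` this gives boundedness at all cusps.
-/

set_option autoImplicit false

noncomputable section

namespace Fermat.Agent.S48.H796

open UpperHalfPlane hiding I
open Complex Filter Topology
open scoped Real

/-- The constant `2π / (1 - e^{-2π/N})`. -/
def cBound (N : ℕ) : ℝ := 2 * π / (1 - Real.exp (-2 * π * (1 / (N : ℝ))))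

lemma cBound_nonneg {N : ℕ} (hN : N ≠ 0) : 0 ≤ cBound N := by
  have hπ := Real.pi_pos
  have hNpos : (0 : ℝ) < N := by exact_mod_cast Nat.pos_of_ne_zero hN
  have h2 : Real.exp (-2 * π * (1 / (N : ℝ))) < 1 := by
    rw [Real.exp_lt_one_iff]
    have : 0 < 1 / (N : ℝ) := by positivity
    nlinarith
  rw [cBound]
  apply div_nonneg (by positivity)
  linarith

lemma lat_div_im (N : ℕ) (τ : ℍ) (v : ℤ × ℤ) :
    (lat τ v / (N : ℂ)).im = v.1 * τ.im / N := by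
  have e : lat τ v / (N : ℂ) = lat τ v * (((N : ℝ)⁻¹ : ℝ) : ℂ) := by
    rw [div_eq_mul_inv]; push_cast; rfl
  rw [e, Complex.im_mul_ofReal, lat_im]
  rw [div_eq_mul_inv]

lemma exp_neg_le_pow {x : ℝ} {k : ℕ} (h : (k : ℝ) ≤ x) :
    Real.exp (-2 * π * x) ≤ Real.exp (-2 * π) ^ k := by
  rw [← Real.exp_nat_mul]
  apply Real.exp_le_exp.mpr
  have hπ := Real.pi_pos
  nlinarith

/-- The pair bound in the fundamental range `0 ≤ a < N`, `Im τ ≥ 1`. -/
lemma norm_pairP_le_of_range {N : ℕ} (hN : N ≠ 0) {a b : ℤ} (ha0 : 0 ≤ a) (haN : a < N)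
    {τ : ℍ} (hτ : 1 ≤ τ.im) (k : ℕ) :
    ‖pairP τ (lat τ (a, b) / N) k‖ ≤ cBound N * 2 * Real.exp (-2 * π) ^ k := by
  have hπ := Real.pi_pos
  have hNpos : (0 : ℝ) < N := by exact_mod_cast Nat.pos_of_ne_zero hN
  have hδ : (0 : ℝ) < 1 / N := by positivity
  have hk : (0 : ℝ) ≤ k := Nat.cast_nonneg k
  have ha0' : (0 : ℝ) ≤ a := by exact_mod_cast ha0
  have haN' : (a : ℝ) + 1 ≤ N := by exact_mod_cast haN
  set y := τ.im with hy
  set s := (lat τ (a, b) / (N : ℂ)).im with hs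
  have hs_eq : s = a * y / N := lat_div_im N τ (a, b)
  have hs0 : 0 ≤ s := by rw [hs_eq]; positivity
  have hs1 : s + y / N ≤ y := by
    rw [hs_eq, ← add_div, div_le_iff₀ hNpos]
    nlinarith
  have hyN : 1 / (N : ℝ) ≤ y / N := by
    apply div_le_div_of_nonneg_right hτ hNpos.le
  have h1 : 1 / (N : ℝ) ≤ s + ((k : ℝ) + 1) * y := by
    have : 1 / (N : ℝ) ≤ 1 := by
      rw [div_le_one hNpos]
      exact_mod_cast Nat.one_le_iff_ne_zero.mpr hN
    nlinarith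
  have h2 : 1 / (N : ℝ) ≤ ((k : ℝ) + 1) * y - s := by
    nlinarith
  refine (norm_pairP_le hδ h1 h2).trans ?_
  have e1 : Real.exp (-2 * π * (s + ((k : ℝ) + 1) * y)) ≤ Real.exp (-2 * π) ^ k :=
    exp_neg_le_pow (by nlinarith)
  have e2 : Real.exp (-2 * π * (((k : ℝ) + 1) * y - s)) ≤ Real.exp (-2 * π) ^ k :=
    exp_neg_le_pow (by nlinarith)
  have hC := cBound_nonneg hN
  rw [cBound] at hC ⊢
  calc 2 * π / (1 - Real.exp (-2 * π * (1 / (N : ℝ)))) *
        (Real.exp (-2 * π * (s + ((k : ℝ) + 1) * y)) +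
          Real.exp (-2 * π * (((k : ℝ) + 1) * y - s)))
      ≤ 2 * π / (1 - Real.exp (-2 * π * (1 / (N : ℝ)))) *
        (Real.exp (-2 * π) ^ k + Real.exp (-2 * π) ^ k) :=
        mul_le_mul_of_nonneg_left (add_le_add e1 e2) hC
    _ = _ := by ring

lemma exp_neg_two_pi_lt_one : Real.exp (-2 * π) < 1 := by
  rw [Real.exp_lt_one_iff]
  have := Real.pi_pos
  linarith

/-- Bound for the tail `∑ pairP` in the fundamental range. -/
lemma norm_tsum_pairP_le {N : ℕ} (hN : N ≠ 0) {a b : ℤ} (ha0 : 0 ≤ a) (haN : a < N)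
    {τ : ℍ} (hτ : 1 ≤ τ.im) :
    ‖∑' k : ℕ, pairP τ (lat τ (a, b) / N) k‖ ≤ cBound N * 2 * (1 - Real.exp (-2 * π))⁻¹ := by
  have hgeo := (hasSum_geometric_of_lt_one (Real.exp_pos _).le exp_neg_two_pi_lt_one).mul_left
    (cBound N * 2)
  exact tsum_of_norm_bounded hgeo (fun k => norm_pairP_le_of_range hN ha0 haN hτ k)

/-- Bound for the leading cotangent when `a ≥ 1`. -/
lemma norm_cotPi_lat_le {N : ℕ} (hN : N ≠ 0) {a b : ℤ} (ha1 : 1 ≤ a)
    {τ : ℍ} (hτ : 1 ≤ τ.im) :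
    ‖cotPi (lat τ (a, b) / N)‖ ≤ cBound N + π := by
  have hπ := Real.pi_pos
  have hNpos : (0 : ℝ) < N := by exact_mod_cast Nat.pos_of_ne_zero hN
  have hδ : (0 : ℝ) < 1 / N := by positivity
  have ha1' : (1 : ℝ) ≤ a := by exact_mod_cast ha1
  have him : 1 / (N : ℝ) ≤ (lat τ (a, b) / (N : ℂ)).im := by
    rw [lat_div_im]
    apply div_le_div_of_nonneg_right _ hNpos.le
    show (1 : ℝ) ≤ a * τ.im
    nlinarith
  have h := norm_cotPi_add_le' hδ him
  have hle : Real.exp (-2 * π * (lat τ (a, b) / (N : ℂ)).im) ≤ 1 := by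
    rw [Real.exp_le_one_iff]
    have : 0 ≤ (lat τ (a, b) / (N : ℂ)).im := hδ.le.trans him
    nlinarith
  have hC := cBound_nonneg hN
  have h' : ‖cotPi (lat τ (a, b) / N) + π * I‖ ≤ cBound N := by
    refine h.trans ?_
    rw [cBound] at hC ⊢
    calc _ ≤ 2 * π / (1 - Real.exp (-2 * π * (1 / (N : ℝ)))) * 1 :=
          mul_le_mul_of_nonneg_left hle hC
      _ = _ := mul_one _
  have e : cotPi (lat τ (a, b) / N) = (cotPi (lat τ (a, b) / N) + π * I) - π * I := by ring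
  rw [e]
  refine (norm_sub_le _ _).trans ?_
  have : ‖(π : ℂ) * I‖ = π := by
    rw [norm_mul, Complex.norm_I, mul_one, Complex.norm_real, Real.norm_of_nonneg hπ.le]
  rw [this]
  linarith

/-- `F_v` is bounded on `Im τ ≥ 1` in the fundamental range. -/
lemma norm_Fv_le_of_range {N : ℕ} (hN : N ≠ 0) {a b : ℤ} (ha0 : 0 ≤ a) (haN : a < N)
    {τ : ℍ} (hτ : 1 ≤ τ.im) :
    ‖Fv N (a, b) τ‖ ≤ ‖cotPi ((b : ℂ) / N)‖ + (cBound N + π) +
      cBound N * 2 * (1 - Real.exp (-2 * π))⁻¹ + ‖2 * π * I * a / N‖ := by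
  rw [Fv, Pfun]
  refine (norm_add_le _ _).trans (add_le_add ?_ le_rfl)
  refine (norm_add_le _ _).trans (add_le_add ?_ (norm_tsum_pairP_le hN ha0 haN hτ))
  have hC := cBound_nonneg hN
  have hπ := Real.pi_pos
  rcases ha0.eq_or_lt with h0 | hpos
  · subst h0
    have e : lat τ (0, b) / (N : ℂ) = (b : ℂ) / N := by simp [lat]
    rw [e]
    have : 0 ≤ cBound N + π := by linarith
    linarith [norm_nonneg (cotPi ((b : ℂ) / N))]
  · have := norm_cotPi_lat_le hN (a := a) (b := b) (by omega) hτ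
    linarith [norm_nonneg (cotPi ((b : ℂ) / N))]

lemma notDiv_emod {N : ℕ} {v : ℤ × ℤ} (hv : NotDiv N v) : NotDiv N (v.1 % N, v.2) := by
  intro h
  apply hv
  refine ⟨?_, h.2⟩
  have := h.1
  exact (Int.dvd_iff_emod_eq_zero).mpr (by
    have h1 := (Int.dvd_iff_emod_eq_zero).mp this
    simpa using h1)

lemma Fv_emod {N : ℕ} (hN : N ≠ 0) {v : ℤ × ℤ} (hv : NotDiv N v) (τ : ℍ) :
    Fv N v τ = Fv N (v.1 % N, v.2) τ := by
  have h := Fv_add hN (notDiv_emod hv) (v.1 / N, 0) τ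
  simp only [mul_zero, add_zero] at h
  rw [Int.emod_add_mul_ediv] at h
  exact h

/-- **Boundedness at `i∞`** of every member of the family. -/
theorem isBoundedAtImInfty_Fv {N : ℕ} (hN : N ≠ 0) {v : ℤ × ℤ} (hv : NotDiv N v) :
    IsBoundedAtImInfty (Fv N v) := by
  rw [UpperHalfPlane.isBoundedAtImInfty_iff]
  have hNpos : (0 : ℤ) < N := by exact_mod_cast Nat.pos_of_ne_zero hN
  refine ⟨‖cotPi ((v.2 : ℂ) / N)‖ + (cBound N + π) +
      cBound N * 2 * (1 - Real.exp (-2 * π))⁻¹ + ‖2 * π * I * ((v.1 % N : ℤ) : ℂ) / N‖, 1,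
    fun τ hτ => ?_⟩
  rw [Fv_emod hN hv]
  exact norm_Fv_le_of_range hN (Int.emod_nonneg _ hNpos.ne') (Int.emod_lt_of_pos _ hNpos) hτ

end Fermat.Agent.S48.H796
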