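import Mathlib
import Fermat.Agent.S22T.Expand
import Fermat.Agent.S48.H796.Bound

/-!
# S48 / P2-EIS (helper796): holomorphy and `q`-expansion coefficients of `F_(0,b)`
-/

set_option autoImplicit false

noncomputable section

namespace Fermat.Agent.S48.H796

open UpperHalfPlane hiding I
open Complex Filter Topology
open scoped Real Manifold

local notation "𝕢" => Function.Periodic.qParam

lemma norm_qCo_le (N : ℕ) (b : ℤ) (n : ℕ) : ‖qCo N b n‖ ≤ ‖qCo N b 0‖ + 4 * π * n := by
  have hπ := Real.pi_pos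
  rcases n with _ | n
  · simp
  · have := norm_qCo_succ_le N b n
    push_cast
    linarith [norm_nonneg (qCo N b 0)]

lemma summable_affine_mul_pow (K : ℝ) {r : ℝ} (hr0 : 0 ≤ r) (hr : r < 1) :
    Summable (fun n : ℕ => (K + 4 * π * n) * r ^ n) := by
  have h1 : Summable (fun n : ℕ => K * r ^ n) :=
    (summable_geometric_of_lt_one hr0 hr).mul_left _
  have h3 : Summable (fun n : ℕ => (n : ℝ) ^ 1 * r ^ n) :=
    summable_pow_mul_geometric_of_norm_lt_one 1 (by rwa [Real.norm_of_nonneg hr0])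
  have h2 : Summable (fun n : ℕ => 4 * π * ((n : ℝ) ^ 1 * r ^ n)) := h3.mul_left _
  have e : (fun n : ℕ => (K + 4 * π * n) * r ^ n) =
      fun n : ℕ => K * r ^ n + 4 * π * ((n : ℝ) ^ 1 * r ^ n) := by
    funext n
    rw [pow_one]
    ring
  rw [e]
  exact h1.add h2

lemma summable_qCo_bound (N : ℕ) (b : ℤ) {r : ℝ} (hr0 : 0 ≤ r) (hr : r < 1) :
    Summable (fun n : ℕ => (‖qCo N b 0‖ + 4 * π * n) * r ^ n) :=
  summable_affine_mul_pow _ hr0 hr

lemma differentiableOn_qCo_series (N : ℕ) (b : ℤ) :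
    DifferentiableOn ℂ (fun z : ℂ => ∑' n : ℕ, qCo N b n * cexp (2 * π * I * z) ^ n)
      {z : ℂ | 0 < z.im} := by
  intro w₀ hw₀
  have hw₀' : 0 < w₀.im := hw₀
  have hπ := Real.pi_pos
  set ε : ℝ := w₀.im / 2 with hε
  have hεpos : 0 < ε := by positivity
  have hU : IsOpen {z : ℂ | ε < z.im} := isOpen_lt continuous_const Complex.continuous_im
  have hmem : w₀ ∈ {z : ℂ | ε < z.im} := by
    show ε < w₀.im
    rw [hε]; linarith
  set r : ℝ := Real.exp (-2 * π * ε) with hr
  have hr0 : 0 ≤ r := (Real.exp_pos _).le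
  have hr1 : r < 1 := by
    rw [hr, Real.exp_lt_one_iff]
    nlinarith
  have hdiff : DifferentiableOn ℂ
      (fun z : ℂ => ∑' n : ℕ, qCo N b n * cexp (2 * π * I * z) ^ n) {z : ℂ | ε < z.im} := by
    refine differentiableOn_tsum_of_summable_norm (summable_qCo_bound N b hr0 hr1)
      (fun n => ?_) hU (fun n w hw => ?_)
    · fun_prop
    · rw [norm_mul, norm_pow, norm_cexp_two_pi_I]
      have h1 : Real.exp (-2 * π * w.im) ≤ r := by
        rw [hr]
        apply Real.exp_le_exp.mpr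
        have : ε < w.im := hw
        nlinarith
      have h2 : Real.exp (-2 * π * w.im) ^ n ≤ r ^ n :=
        pow_le_pow_left₀ (Real.exp_pos _).le h1 n
      exact mul_le_mul (norm_qCo_le N b n) h2 (by positivity) (by positivity)
  exact ((hdiff w₀ hmem).differentiableAt (hU.mem_nhds hmem)).differentiableWithinAt

/-- **Holomorphy** of `F_(0,b)`. -/
theorem mdifferentiable_Fv_zero (N : ℕ) (b : ℤ) : MDiff (Fv N (0, b)) := by
  rw [UpperHalfPlane.mdifferentiable_iff]
  refine (differentiableOn_qCo_series N b).congr fun w hw => ?_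
  have hw' : 0 < w.im := hw
  simp only [Function.comp_apply]
  rw [ofComplex_apply_of_im_pos hw']
  exact ((hasSum_Fv_zero N b ⟨w, hw'⟩).tsum_eq).symm

lemma qParam_one_eq (τ : ℍ) : 𝕢 1 (τ : ℂ) = qq τ := by
  simp [Function.Periodic.qParam, qq]

theorem hasSum_Fv_zero_qParam (N : ℕ) (b : ℤ) (τ : ℍ) :
    HasSum (fun n => qCo N b n • 𝕢 1 (τ : ℂ) ^ n) (Fv N (0, b) τ) := by
  simpa [qParam_one_eq, smul_eq_mul] using hasSum_Fv_zero N b τ

/-- **`q`-expansion coefficients** of `F_(0,b)`. -/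
theorem qExpansion_Fv_zero_coeff (N : ℕ) (b : ℤ) (n : ℕ) :
    (qExpansion 1 (Fv N (0, b))).coeff n = qCo N b n :=
  Fermat.Agent.S22T.qExpansion_coeff_of_hasSum one_pos (hasSum_Fv_zero_qParam N b)
    (mdifferentiable_Fv_zero N b) n

end Fermat.Agent.S48.H796
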