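import Mathlib
import Fermat.Agent.S48.H796.Holo

/-!
# S48 / P2-EIS (helper796): the family `eisFam N b : ModularForm (Gamma1 N) 1`, `b : ZMod N`

* `eisFam N 0 = 0`, and for `b ≠ 0`, `eisFam N b τ = F_(0,b)(τ) = P(b/N, τ)`;
* `eisFam_slash` : `eisFam N b ∣[1] γ = eisFam N (b * d_γ)` for `γ ∈ Γ₀(N)`;
* `qExpansion_eisFam_zero`, `qExpansion_eisFam_pos` : the `q`-expansion
  `π cot(π b/N) + ∑_{n ≥ 1} (∑_{j ∣ n} 2πi (e(-bj) - e(bj))) qⁿ`, `e = ZMod.stdAddChar`.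
-/

set_option autoImplicit false

noncomputable section

namespace Fermat.Agent.S48.H796

open UpperHalfPlane hiding I
open Complex Filter Topology ModularForm CongruenceSubgroup
open scoped Real Manifold MatrixGroups

/-- `F_v` only depends on `v` mod `N`. -/
theorem Fv_congr {N : ℕ} (hN : N ≠ 0) {v v' : ℤ × ℤ} (hv' : NotDiv N v')
    (h1 : (N : ℤ) ∣ v.1 - v'.1) (h2 : (N : ℤ) ∣ v.2 - v'.2) : Fv N v = Fv N v' := by
  obtain ⟨q1, hq1⟩ := h1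
  obtain ⟨q2, hq2⟩ := h2
  funext τ
  have h := Fv_add hN hv' (q1, q2) τ
  have e : v = (v'.1 + N * q1, v'.2 + N * q2) := by
    ext
    · show v.1 = v'.1 + N * q1
      linarith
    · show v.2 = v'.2 + N * q2
      linarith
  rw [e]
  exact h

lemma notDiv_zero_left {N : ℕ} {b : ℤ} (hb : ¬ (N : ℤ) ∣ b) : NotDiv N (0, b) :=
  fun h => hb h.2

/-- The slash action of `Γ₀(N)` on `F_(0,b)`. -/
theorem Fv_slash_Gamma0 {N : ℕ} (hN : N ≠ 0) {γ : SL(2, ℤ)} (hγ : γ ∈ Gamma0 N) {b : ℤ}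
    (hb : ¬ (N : ℤ) ∣ b) :
    ¬ (N : ℤ) ∣ b * γ 1 1 ∧ (Fv N (0, b)) ∣[(1 : ℤ)] γ = Fv N (0, b * γ 1 1) := by
  have hnd := notDiv_zero_left hb
  have h10 : (N : ℤ) ∣ γ 1 0 := by
    have := Gamma0_mem.mp hγ
    exact (ZMod.intCast_zmod_eq_zero_iff_dvd _ _).mp this
  have hv : vmul (0, b) γ = (b * γ 1 0, b * γ 1 1) := by
    simp [vmul]
  have hnd' := hnd.vmul γ
  rw [hv] at hnd'
  have hb' : ¬ (N : ℤ) ∣ b * γ 1 1 := fun h => hnd' ⟨Dvd.dvd.mul_left h10 b, h⟩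
  refine ⟨hb', ?_⟩
  rw [Fv_slash hN γ _ hnd, hv]
  exact Fv_congr hN (notDiv_zero_left hb') (by simpa using Dvd.dvd.mul_left h10 b) (by simp)

/-- The function-level family indexed by `ZMod N`. -/
def fvZ (N : ℕ) (b : ZMod N) : ℍ → ℂ := if b = 0 then 0 else Fv N (0, (b.val : ℤ))

lemma fvZ_zero (N : ℕ) : fvZ N 0 = 0 := by simp [fvZ]

lemma fvZ_of_ne {N : ℕ} {b : ZMod N} (hb : b ≠ 0) : fvZ N b = Fv N (0, (b.val : ℤ)) := by
  simp [fvZ, hb]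

lemma not_dvd_val {N : ℕ} [NeZero N] {b : ZMod N} (hb : b ≠ 0) : ¬ (N : ℤ) ∣ (b.val : ℤ) := by
  intro h
  apply hb
  have h1 : ((b.val : ℤ) : ZMod N) = 0 := (ZMod.intCast_zmod_eq_zero_iff_dvd _ _).mpr h
  simpa using h1

/-- `fvZ N b` for a general integer representative. -/
lemma fvZ_intCast {N : ℕ} [NeZero N] {c : ℤ} (hc : ¬ (N : ℤ) ∣ c) :
    fvZ N (c : ZMod N) = Fv N (0, c) := by
  have hne : (c : ZMod N) ≠ 0 := fun h => hc ((ZMod.intCast_zmod_eq_zero_iff_dvd _ _).mp h)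
  rw [fvZ_of_ne hne]
  refine Fv_congr (NeZero.ne N) (notDiv_zero_left hc) (by simp) ?_
  show (N : ℤ) ∣ (((c : ZMod N).val : ℤ)) - c
  rw [← ZMod.intCast_zmod_eq_zero_iff_dvd]
  simp

/-- **Slash law** of the family under `Γ₀(N)`. -/
theorem fvZ_slash {N : ℕ} [NeZero N] {γ : SL(2, ℤ)} (hγ : γ ∈ Gamma0 N) (b : ZMod N) :
    (fvZ N b) ∣[(1 : ℤ)] γ = fvZ N (b * ((γ 1 1 : ℤ) : ZMod N)) := by
  by_cases hb : b = 0
  · subst hb
    rw [zero_mul, fvZ_zero]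
    exact SlashAction.zero_slash _ _
  · have hb' := not_dvd_val hb
    obtain ⟨h1, h2⟩ := Fv_slash_Gamma0 (NeZero.ne N) hγ hb'
    rw [fvZ_of_ne hb, h2, ← fvZ_intCast h1]
    congr 1
    push_cast
    rw [ZMod.natCast_zmod_val]

theorem fvZ_slash_Gamma1 {N : ℕ} [NeZero N] {γ : SL(2, ℤ)} (hγ : γ ∈ Gamma1 N) (b : ZMod N) :
    (fvZ N b) ∣[(1 : ℤ)] γ = fvZ N b := by
  have h0 : γ ∈ Gamma0 N := Gamma1_in_Gamma0 N hγ
  rw [fvZ_slash h0]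
  have h11 : ((γ 1 1 : ℤ) : ZMod N) = 1 := (Gamma1_mem N γ).mp hγ |>.2.1
  rw [h11, mul_one]

theorem mdifferentiable_fvZ (N : ℕ) (b : ZMod N) : MDiff (fvZ N b) := by
  by_cases hb : b = 0
  · subst hb
    rw [fvZ_zero]
    exact mdifferentiable_const
  · rw [fvZ_of_ne hb]
    exact mdifferentiable_Fv_zero N _

theorem isBoundedAtImInfty_fvZ_slash {N : ℕ} [NeZero N] (b : ZMod N) (γ : SL(2, ℤ)) :
    IsBoundedAtImInfty ((fvZ N b) ∣[(1 : ℤ)] γ) := by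
  by_cases hb : b = 0
  · subst hb
    rw [fvZ_zero, SlashAction.zero_slash]
    exact zero_form_isBoundedAtImInfty
  · have hnd := notDiv_zero_left (not_dvd_val hb)
    rw [fvZ_of_ne hb, Fv_slash (NeZero.ne N) γ _ hnd]
    exact isBoundedAtImInfty_Fv (NeZero.ne N) (hnd.vmul γ)

/-- **The family of weight-one modular forms** on `Γ₁(N)`. -/
def eisFam (N : ℕ) [NeZero N] (b : ZMod N) : ModularForm (Gamma1 N) 1 where
  toFun := fvZ N b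
  slash_action_eq' := by
    rintro _ ⟨γ, hγ, rfl⟩
    exact fvZ_slash_Gamma1 hγ b
  holo' := mdifferentiable_fvZ N b
  bdd_at_cusps' {c} hc := by
    rw [Subgroup.IsArithmetic.isCusp_iff_isCusp_SL2Z] at hc
    rw [OnePoint.isBoundedAt_iff_forall_SL2Z hc]
    exact fun γ _ => isBoundedAtImInfty_fvZ_slash b γ

@[simp] theorem coe_eisFam (N : ℕ) [NeZero N] (b : ZMod N) : ⇑(eisFam N b) = fvZ N b := rfl

theorem eisFam_zero (N : ℕ) [NeZero N] : eisFam N 0 = 0 := by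
  ext τ
  simp [fvZ_zero]

theorem eisFam_apply {N : ℕ} [NeZero N] {b : ZMod N} (hb : b ≠ 0) (τ : ℍ) :
    eisFam N b τ = Pfun τ ((b.val : ℂ) / N) := by
  rw [coe_eisFam, fvZ_of_ne hb, Fv_zero_left, Int.cast_natCast]

/-- **Slash law**: `eisFam N b ∣[1] γ = eisFam N (b * d_γ)` for `γ ∈ Γ₀(N)`. -/
theorem eisFam_slash {N : ℕ} [NeZero N] {γ : SL(2, ℤ)} (hγ : γ ∈ Gamma0 N) (b : ZMod N) :
    (⇑(eisFam N b)) ∣[(1 : ℤ)] γ = ⇑(eisFam N (b * ((γ 1 1 : ℤ) : ZMod N))) := by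
  rw [coe_eisFam, coe_eisFam]
  exact fvZ_slash hγ b

end Fermat.Agent.S48.H796
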