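import Mathlib
import Fermat.Agent.S48.H796.Form

/-!
# S48 / P2-EIS (helper796): `q`-expansion of `eisFam N b` in terms of `ZMod.stdAddChar`

For `b ≠ 0` in `ZMod N`:
`eisFam N b = π cot(π b/N) + ∑_{n ≥ 1} (∑_{j ∣ n} 2πi (e(-bj) - e(bj))) qⁿ`, `e = ZMod.stdAddChar`,
and `π cot(π b/N) = πi (1 + (2/N) ∑_{a < N} a e(ab))`.
-/

set_option autoImplicit false

noncomputable section

namespace Fermat.Agent.S48.H796

open UpperHalfPlane hiding I
open Complex Filter Topology ModularForm CongruenceSubgroup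
open scoped Real Manifold MatrixGroups

local notation "𝕢" => Function.Periodic.qParam

lemma zetaB_val (N : ℕ) [NeZero N] (b : ZMod N) :
    zetaB N (b.val : ℤ) = ZMod.stdAddChar b := by
  rw [zetaB, ← ZMod.stdAddChar_coe]
  congr 1
  simp

lemma sCoef_val (N : ℕ) [NeZero N] (b : ZMod N) (j : ℕ) :
    sCoef N (b.val : ℤ) j =
      2 * π * I * (ZMod.stdAddChar (-(b * (j : ZMod N))) - ZMod.stdAddChar (b * (j : ZMod N))) := by
  have e1 : b * (j : ZMod N) = j • b := by rw [nsmul_eq_mul, mul_comm]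
  rw [sCoef, zetaB_val, e1, AddChar.map_neg_eq_inv, AddChar.map_nsmul_eq_pow, inv_pow]

/-- The `q`-series of `eisFam N b`, `b ≠ 0`. -/
theorem hasSum_eisFam {N : ℕ} [NeZero N] {b : ZMod N} (hb : b ≠ 0) (τ : ℍ) :
    HasSum (fun n => qCo N (b.val : ℤ) n • 𝕢 1 (τ : ℂ) ^ n) (eisFam N b τ) := by
  rw [coe_eisFam, fvZ_of_ne hb]
  exact hasSum_Fv_zero_qParam N _ τ

theorem qExpansion_eisFam {N : ℕ} [NeZero N] {b : ZMod N} (hb : b ≠ 0) (n : ℕ) :
    (qExpansion 1 ⇑(eisFam N b)).coeff n = qCo N (b.val : ℤ) n := by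
  rw [coe_eisFam, fvZ_of_ne hb]
  exact qExpansion_Fv_zero_coeff N _ n

/-- **Constant term** of `eisFam N b`. -/
theorem qExpansion_eisFam_zero {N : ℕ} [NeZero N] {b : ZMod N} (hb : b ≠ 0) :
    (qExpansion 1 ⇑(eisFam N b)).coeff 0 = cotPi ((b.val : ℂ) / N) := by
  rw [qExpansion_eisFam hb, qCo_zero, Int.cast_natCast]

/-- **Higher coefficients** of `eisFam N b`. -/
theorem qExpansion_eisFam_pos {N : ℕ} [NeZero N] {b : ZMod N} (hb : b ≠ 0) {n : ℕ}
    (hn : 1 ≤ n) :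
    (qExpansion 1 ⇑(eisFam N b)).coeff n =
      ∑ j ∈ n.divisors,
        2 * π * I * (ZMod.stdAddChar (-(b * (j : ZMod N))) - ZMod.stdAddChar (b * (j : ZMod N))) := by
  rw [qExpansion_eisFam hb, qCo_of_pos _ _ hn]
  exact Finset.sum_congr rfl (fun j _ => sCoef_val N b j)

/-! ### The finite cotangent identity -/

lemma sum_range_mul_pow (z : ℂ) (n : ℕ) :
    (z - 1) * ∑ a ∈ Finset.range n, (a : ℂ) * z ^ a =
      n * z ^ n - ∑ a ∈ Finset.range n, z ^ (a + 1) := by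
  induction n with
  | zero => simp
  | succ n ih =>
    rw [Finset.sum_range_succ, mul_add, ih, Finset.sum_range_succ]
    push_cast
    ring

lemma sum_range_mul_pow_of_root {z : ℂ} {N : ℕ} (hz1 : z ≠ 1) (hzN : z ^ N = 1) :
    ∑ a ∈ Finset.range N, (a : ℂ) * z ^ a = N / (z - 1) := by
  have hz : z - 1 ≠ 0 := sub_ne_zero.mpr hz1
  have h := sum_range_mul_pow z N
  have h2 : ∑ a ∈ Finset.range N, z ^ (a + 1) = 0 := by
    have e : ∀ a ∈ Finset.range N, z ^ (a + 1) = z * z ^ a := fun a _ => pow_succ' z a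
    rw [Finset.sum_congr rfl e, ← Finset.mul_sum, geom_sum_eq hz1, hzN, sub_self, zero_div,
      mul_zero]
  rw [hzN, h2, sub_zero, mul_one] at h
  rw [eq_div_iff hz, mul_comm]
  exact h

/-- `π cot(π b/N) = πi (1 + (2/N) ∑_{a < N} a e(ab))` for `b ≠ 0` in `ZMod N`. -/
theorem cotPi_val_eq {N : ℕ} [NeZero N] {b : ZMod N} (hb : b ≠ 0) :
    cotPi ((b.val : ℂ) / N) =
      π * I * (1 + 2 / N * ∑ a ∈ Finset.range N,
        (a : ℂ) * ZMod.stdAddChar ((a : ZMod N) * b)) := by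
  have hN : (N : ℂ) ≠ 0 := by exact_mod_cast NeZero.ne N
  set z : ℂ := ZMod.stdAddChar b with hz
  have hz1 : z ≠ 1 := by
    intro h
    apply hb
    exact (AddChar.injective_iff.mp ZMod.injective_stdAddChar) h
  have hzN : z ^ N = 1 := by
    rw [hz, ← AddChar.map_nsmul_eq_pow, nsmul_eq_mul, ZMod.natCast_self, zero_mul,
      AddChar.map_zero_eq_one]
  have e1 : ∀ a ∈ Finset.range N, (a : ℂ) * ZMod.stdAddChar ((a : ZMod N) * b) =
      (a : ℂ) * z ^ a := by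
    intro a _
    rw [hz, ← AddChar.map_nsmul_eq_pow, nsmul_eq_mul]
  rw [Finset.sum_congr rfl e1, sum_range_mul_pow_of_root hz1 hzN]
  have hu : cexp (2 * π * I * ((b.val : ℂ) / N)) = z := by
    rw [hz, ← zetaB_val, zetaB]
    congr 1
    push_cast
    ring
  rw [cotPi_eq_exp, hu]
  have hz' : z - 1 ≠ 0 := sub_ne_zero.mpr hz1
  have hz'' : 1 - z ≠ 0 := sub_ne_zero.mpr (Ne.symm hz1)
  have hI : (I : ℂ) ≠ 0 := Complex.I_ne_zero
  field_simp
  have hI2 : I ^ 2 = -1 := Complex.I_sq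
  linear_combination (z ^ 2 - 1) * hI2

end Fermat.Agent.S48.H796
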