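import Mathlib
import Fermat.Agent.S48.H796.FormQ
import Fermat.Agent.S48.H788.EisCong

/-!
# S48 / P2-EIS (helper796): the unconditional results

`eisFam N` (steps 1–4, helper796) is an `EisFamily` in the sense of helper788 (steps 5–6), hence:

* `exists_eisenstein_one` : the weight-one Eisenstein series `E_{1,ψ}` of a primitive odd `ψ`;
* `exists_multiplier` : for an odd prime `ℓ` and `φ : ℤ̄ → k`, `char k = ℓ`, a weight-one form `H`
  on `Γ₁(ℓ)` with nebentypus `ω⁻¹`, integral coefficients and `H ≡ 1 mod φ`.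
-/

set_option autoImplicit false

noncomputable section

namespace Fermat.Agent.S48.H796

open UpperHalfPlane hiding I
open Complex ModularForm CongruenceSubgroup ModularFormClass
open scoped Real Manifold MatrixGroups

/-- The family `eisFam N` satisfies helper788's interface. -/
theorem eisFamily (N : ℕ) [NeZero N] : Fermat.Agent.S48.H788.EisFamily N (eisFam N) where
  slash := fun _ hγ b _ => eisFam_slash hγ b
  coeff_zero := fun b hb => by
    rw [qCoeff, qExpansion_eisFam_zero hb, cotPi]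
  coeff_pos := fun b hb n hn => by
    rw [qCoeff, qExpansion_eisFam_pos hb hn, Finset.mul_sum]
    refine Finset.sum_congr rfl fun k _ => ?_
    rw [Fermat.Agent.S48.H788.sin_eq_stdAddChar, neg_mul, mul_comm (k : ZMod N) b]
    ring

/-- **EIS.** The weight-one Eisenstein series `E_{1,ψ}` of a primitive odd Dirichlet character. -/
theorem exists_eisenstein_one (N : ℕ) [NeZero N] (ψ : DirichletCharacter ℂ N)
    (hodd : ψ.Odd) (hprim : ψ.IsPrimitive) :
    ∃ E : ModularForm (Gamma1 N) 1,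
      (∀ γ : SL(2, ℤ), γ ∈ Gamma0 N →
        (⇑E) ∣[(1 : ℤ)] γ = ψ (((γ 1 1 : ℤ)) : ZMod N) • ⇑E) ∧
      qCoeff (⇑E) 0 = -(∑ a ∈ Finset.range N, (a : ℂ) * ψ a) / (2 * N) ∧
      ∀ n : ℕ, 1 ≤ n → qCoeff (⇑E) n = ∑ d ∈ n.divisors, ψ d :=
  Fermat.Agent.S48.H788.eisenstein_one_of_family (eisFamily N) ψ hodd hprim

/-- **CONG.** The multiplier `H ≡ 1 mod λ` of weight one on `Γ₁(ℓ)`. -/
theorem exists_multiplier (ℓ : ℕ) [Fact ℓ.Prime] {k : Type*} [Field k] [CharP k ℓ]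
    (φ : Fermat.Agent.S48.H788.ZbarT →+* k) (hℓ2 : ℓ ≠ 2) :
    ∃ (ψ : DirichletCharacter ℂ ℓ) (H : ModularForm (Gamma1 ℓ) 1),
      (∀ a : ZMod ℓ, ∃ z : Fermat.Agent.S48.H788.ZbarT, (z : ℂ) = ψ a ∧
        φ z * ((a.val : ℕ) : k) = if a = 0 then 0 else 1) ∧
      (∀ γ : SL(2, ℤ), γ ∈ Gamma0 ℓ →
        (⇑H) ∣[(1 : ℤ)] γ = ψ (((γ 1 1 : ℤ)) : ZMod ℓ) • ⇑H) ∧
      (∀ n : ℕ, ∃ z : Fermat.Agent.S48.H788.ZbarT, (z : ℂ) = qCoeff (⇑H) n ∧
        φ z = if n = 0 then 1 else 0) :=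
  Fermat.Agent.S48.H788.exists_multiplier_of_family ℓ φ hℓ2 (eisFamily ℓ)

end Fermat.Agent.S48.H796
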